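import Mathlib
import Fermat.Agent.LT.H556.A0
import Fermat.Agent.LT.T1.Spec

/-!
# Row LT, tower T2, leaf T2.13 (helper627): adelic constructions

Elements of `GL₂(𝔸_K)` with prescribed archimedean components (positive real scalars, the ray
`diag(s,1)`), scalar matrices of ideles, their continuity.  OFF-MAIN.
-/

set_option autoImplicit false
set_option linter.unusedSectionVars false

open IsDedekindDomain NumberField MeasureTheory
open Fermat.Agent.LT.H556.A0
open scoped Classical

noncomputable section

namespace Fermat.Agent.LT.T2.H627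

variable {K : Type} [Field K] [NumberField K]

/-- Real numbers lie in the image of the completion at an infinite place. -/
theorem exists_real627 (w : InfinitePlace K) (s : ℝ) :
    ∃ x : w.Completion, InfinitePlace.Completion.extensionEmbedding w x = (s : ℂ) := by
  have hcl := InfinitePlace.Completion.isClosed_image_extensionEmbedding w
  have hQ : ∀ q : ℚ, ((q : ℝ) : ℂ) ∈
      Set.range (InfinitePlace.Completion.extensionEmbedding w) :=
    fun q => ⟨(q : w.Completion), by simp⟩
  have hs : s ∈ closure (Set.range (fun q : ℚ => (q : ℝ))) := by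
    rw [(Rat.denseRange_cast (𝕜 := ℝ)).closure_range]; trivial
  have h2 : (s : ℂ) ∈ closure (Set.range (InfinitePlace.Completion.extensionEmbedding w)) := by
    have := map_mem_closure Complex.continuous_ofReal hs
      (t := Set.range (InfinitePlace.Completion.extensionEmbedding w))
      (by rintro _ ⟨q, rfl⟩; exact hQ q)
    exact this
  rwa [hcl.closure_eq] at h2

/-- The real number `s` as an element of the completion at `w`. -/
def eR627 (w : InfinitePlace K) (s : ℝ) : w.Completion := (exists_real627 w s).choose

@[simp] theorem ext_eR627 (w : InfinitePlace K) (s : ℝ) :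
    InfinitePlace.Completion.extensionEmbedding w (eR627 w s) = (s : ℂ) :=
  (exists_real627 w s).choose_spec

theorem ext_inj627 (w : InfinitePlace K) :
    Function.Injective (InfinitePlace.Completion.extensionEmbedding w) :=
  (InfinitePlace.Completion.extensionEmbedding w).injective

theorem eR627_mul (w : InfinitePlace K) (s t : ℝ) : eR627 w (s * t) = eR627 w s * eR627 w t :=
  ext_inj627 w (by simp)

@[simp] theorem eR627_one (w : InfinitePlace K) : eR627 w 1 = 1 := ext_inj627 w (by simp)

@[simp] theorem eR627_zero (w : InfinitePlace K) : eR627 w 0 = 0 := ext_inj627 w (by simp)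

theorem isometry_eR627 (w : InfinitePlace K) : Isometry (eR627 (K := K) w) := by
  refine Isometry.of_dist_eq fun s t => ?_
  rw [← (InfinitePlace.Completion.isometry_extensionEmbedding w).dist_eq]
  simp only [ext_eR627]
  rw [dist_eq_norm, ← Complex.ofReal_sub, Complex.norm_real, Real.dist_eq, Real.norm_eq_abs]

theorem norm_eR627 (w : InfinitePlace K) (s : ℝ) : ‖eR627 w s‖ = |s| := by
  have := (isometry_eR627 w).dist_eq s 0
  simpa [dist_eq_norm] using this

/-! ## Ideles supported at the infinite places -/

/-- The adele with component `s w` at the infinite place `w` and `1` at the finite places. -/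
def infAdele627 (s : InfinitePlace K → ℝ) : Adl K :=
  ((fun w => eR627 w (s w)), (1 : FiniteAdeleRing (𝓞 K) K))

@[simp] theorem infAdele627_fst (s : InfinitePlace K → ℝ) (w : InfinitePlace K) :
    (infAdele627 s).1 w = eR627 w (s w) := rfl

@[simp] theorem infAdele627_snd (s : InfinitePlace K → ℝ) :
    (infAdele627 s).2 = 1 := rfl

theorem adl_ext627 {x y : Adl K} (h1 : ∀ w, x.1 w = y.1 w) (h2 : ∀ v, x.2 v = y.2 v) : x = y :=
  Prod.ext (funext h1) (FiniteAdeleRing.ext K h2)

theorem infAdele627_mul (s t : InfinitePlace K → ℝ) :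
    infAdele627 s * infAdele627 t = infAdele627 (fun w => s w * t w) := by
  refine adl_ext627 (fun w => ?_) (fun v => ?_)
  · show eR627 w (s w) * eR627 w (t w) = eR627 w (s w * t w)
    rw [eR627_mul]
  · show ((1 : FiniteAdeleRing (𝓞 K) K) * 1) v = (1 : FiniteAdeleRing (𝓞 K) K) v
    rw [mul_one]

theorem infAdele627_one : infAdele627 (K := K) (fun _ => 1) = 1 := by
  refine adl_ext627 (fun w => ?_) (fun v => ?_)
  · show eR627 w 1 = 1
    simp
  · rfl

/-- The idele with component `s w ≠ 0` at the infinite place `w` and `1` at the finite places. -/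
def infIdele627 (s : InfinitePlace K → ℝ) (hs : ∀ w, s w ≠ 0) : (Adl K)ˣ where
  val := infAdele627 s
  inv := infAdele627 (fun w => (s w)⁻¹)
  val_inv := by
    rw [infAdele627_mul, ← infAdele627_one]
    congr 1; funext w; exact mul_inv_cancel₀ (hs w)
  inv_val := by
    rw [infAdele627_mul, ← infAdele627_one]
    congr 1; funext w; exact inv_mul_cancel₀ (hs w)

theorem infIdele627_val (s : InfinitePlace K → ℝ) (hs : ∀ w, s w ≠ 0) :
    ((infIdele627 s hs : (Adl K)ˣ) : Adl K) = infAdele627 s := rfl

theorem infIdele627_mul (s t : InfinitePlace K → ℝ) (hs : ∀ w, s w ≠ 0) (ht : ∀ w, t w ≠ 0) :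
    infIdele627 s hs * infIdele627 t ht =
      infIdele627 (fun w => s w * t w) (fun w => mul_ne_zero (hs w) (ht w)) :=
  Units.ext (infAdele627_mul s t)

theorem continuous_infAdele627 :
    Continuous (fun s : ℝ => infAdele627 (K := K) (fun _ => s)) := by
  refine Continuous.prodMk ?_ continuous_const
  exact continuous_pi fun w => (isometry_eR627 w).continuous

/-! ## Scalar matrices and the ray -/

/-- The scalar matrix of an idele. -/
def scal627 : (Adl K)ˣ →* G K := Units.map (Matrix.scalar (Fin 2)).toMonoidHom

theorem scal627_val (u : (Adl K)ˣ) :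
    ((scal627 u : G K) : Matrix (Fin 2) (Fin 2) (Adl K)) = Matrix.diagonal (fun _ => (u : Adl K)) :=
  rfl

theorem scal627_comm (u : (Adl K)ˣ) (g : G K) : scal627 u * g = g * scal627 u := by
  apply Units.ext
  show Matrix.scalar (Fin 2) (u : Adl K) * (g : Matrix (Fin 2) (Fin 2) (Adl K)) =
    (g : Matrix (Fin 2) (Fin 2) (Adl K)) * Matrix.scalar (Fin 2) (u : Adl K)
  exact (Matrix.scalar_commute (u : Adl K) (fun r' => Commute.all _ _) _).eq

theorem continuous_scal627 : Continuous (scal627 (K := K)) := by
  refine Continuous.units_map _ ?_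
  show Continuous fun x : Adl K => Matrix.diagonal (fun _ : Fin 2 => x)
  exact Continuous.matrix_diagonal (continuous_pi fun _ => continuous_id)

/-- The monoid homomorphism `x ↦ diag(x, 1)`. -/
def dmap627 : Adl K →* Matrix (Fin 2) (Fin 2) (Adl K) where
  toFun x := Matrix.diagonal ![x, 1]
  map_one' := by
    ext i j; fin_cases i <;> fin_cases j <;> simp
  map_mul' x y := by
    rw [Matrix.diagonal_mul_diagonal]
    congr 1; funext i; fin_cases i <;> simp

/-- The matrix `diag(u, 1)` of an idele `u`. -/
def diag627 : (Adl K)ˣ →* G K := Units.map dmap627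

theorem diag627_val (u : (Adl K)ˣ) :
    ((diag627 u : G K) : Matrix (Fin 2) (Fin 2) (Adl K)) = Matrix.diagonal ![(u : Adl K), 1] :=
  rfl

theorem continuous_diag627 : Continuous (diag627 (K := K)) := by
  refine Continuous.units_map _ ?_
  show Continuous fun x : Adl K => Matrix.diagonal ![x, 1]
  refine Continuous.matrix_diagonal (continuous_pi fun i => ?_)
  fin_cases i
  · exact continuous_id
  · exact continuous_const

/-! ## Exponential parametrisation -/

/-- The idele with component `exp (t w)` at the infinite place `w`, `1` at the finite places. -/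
def expIdele627 (t : InfinitePlace K → ℝ) : (Adl K)ˣ :=
  infIdele627 (fun w => Real.exp (t w)) (fun w => (Real.exp_pos (t w)).ne')

theorem expIdele627_val (t : InfinitePlace K → ℝ) :
    ((expIdele627 t : (Adl K)ˣ) : Adl K) = infAdele627 (fun w => Real.exp (t w)) := rfl

theorem expIdele627_inv_val (t : InfinitePlace K → ℝ) :
    (((expIdele627 t)⁻¹ : (Adl K)ˣ) : Adl K) = infAdele627 (fun w => (Real.exp (t w))⁻¹) := rfl

theorem expIdele627_add (s t : InfinitePlace K → ℝ) :
    expIdele627 (s + t) = expIdele627 s * expIdele627 t := by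
  apply Units.ext
  rw [Units.val_mul, expIdele627_val, expIdele627_val, expIdele627_val, infAdele627_mul]
  congr 1; funext w; exact Real.exp_add _ _

theorem expIdele627_zero : expIdele627 (K := K) 0 = 1 := by
  apply Units.ext
  rw [expIdele627_val, Units.val_one, ← infAdele627_one]
  congr 1; funext w; exact Real.exp_zero

theorem expIdele627_sum (S : Finset (InfinitePlace K)) (t : InfinitePlace K → InfinitePlace K → ℝ) :
    expIdele627 (∑ w ∈ S, t w) = ∏ w ∈ S, expIdele627 (t w) := by
  classical
  induction S using Finset.induction_on with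
  | empty => simp [expIdele627_zero]
  | insert a S ha ih => rw [Finset.sum_insert ha, Finset.prod_insert ha, expIdele627_add, ih]

theorem expIdele627_const_eq_prod (t : ℝ) :
    expIdele627 (K := K) (fun _ => t) = ∏ w, expIdele627 (Pi.single w t) := by
  classical
  rw [← expIdele627_sum]
  congr 1
  exact (Finset.univ_sum_single (fun _ : InfinitePlace K => t)).symm

theorem continuous_expIdele627 :
    Continuous (fun t : ℝ => expIdele627 (K := K) (fun _ => t)) := by
  rw [Units.continuous_iff]
  constructor
  · exact continuous_infAdele627.comp Real.continuous_exp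
  · have : Continuous fun t : ℝ => (Real.exp t)⁻¹ :=
      Real.continuous_exp.inv₀ (fun t => (Real.exp_pos t).ne')
    exact continuous_infAdele627.comp this

/-- The element `diag(exp t, 1)` of the ray. -/
def ray627 (t : ℝ) : G K := diag627 (expIdele627 (fun _ => t))

theorem continuous_ray627 : Continuous (ray627 (K := K)) :=
  continuous_diag627.comp continuous_expIdele627

/-- The positive scalar `exp t` (diagonally embedded at the infinite places). -/
def zpos627 (t : ℝ) : G K := scal627 (expIdele627 (fun _ => t))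

/-- The positive scalar `exp t` at the infinite place `w`. -/
def zloc627 (w : InfinitePlace K) (t : ℝ) : G K := scal627 (expIdele627 (Pi.single w t))

theorem zpos627_comm (t : ℝ) (g : G K) : zpos627 t * g = g * zpos627 t := scal627_comm _ g

/-! ## Components -/

theorem infComp_scal627 (w : InfinitePlace K) (u : (Adl K)ˣ) :
    infComp w (scal627 u) = Matrix.diagonal (fun _ =>
      InfinitePlace.Completion.extensionEmbedding w ((u : Adl K).1 w)) := by
  refine Matrix.ext fun i j => ?_
  show InfinitePlace.Completion.extensionEmbedding w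
    ((Matrix.diagonal (fun _ : Fin 2 => (u : Adl K)) i j).1 w) = _
  by_cases h : i = j
  · subst h; simp
  · simp only [Matrix.diagonal_apply_ne _ h]
    exact map_zero _

theorem finComp_scal627 (v : HeightOneSpectrum (𝓞 K)) (u : (Adl K)ˣ) :
    finComp v (scal627 u) = Matrix.diagonal (fun _ => (u : Adl K).2 v) := by
  refine Matrix.ext fun i j => ?_
  show (Matrix.diagonal (fun _ : Fin 2 => (u : Adl K)) i j).2 v = _
  by_cases h : i = j
  · subst h; simp
  · simp only [Matrix.diagonal_apply_ne _ h]
    rfl

theorem isArchPosScalar_zloc627 (w : InfinitePlace K) (t : ℝ) :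
    IsArchPosScalar w (zloc627 w t) := by
  classical
  refine ⟨⟨fun w' hw' i j => ?_, fun v => ?_⟩, Real.exp t, Real.exp_pos t, ?_⟩
  · show (Matrix.diagonal (fun _ : Fin 2 => ((expIdele627 (Pi.single w t) : (Adl K)ˣ) : Adl K))
      i j).1 w' = _
    by_cases h : i = j
    · subst h
      simp only [Matrix.diagonal_apply_eq, Matrix.one_apply_eq]
      show eR627 w' (Real.exp ((Pi.single w t : InfinitePlace K → ℝ) w')) = 1
      rw [Pi.single_eq_of_ne hw', Real.exp_zero, eR627_one]
    · simp only [Matrix.diagonal_apply_ne _ h, Matrix.one_apply_ne h]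
      rfl
  · show finComp v (scal627 _) = 1
    rw [finComp_scal627]
    show Matrix.diagonal (fun _ : Fin 2 => (1 : FiniteAdeleRing (𝓞 K) K) v) = 1
    rw [← Matrix.diagonal_one]; rfl
  · show infComp w (scal627 _) = _
    rw [infComp_scal627]
    congr 1; funext _
    show InfinitePlace.Completion.extensionEmbedding w
      (eR627 w (Real.exp ((Pi.single w t : InfinitePlace K → ℝ) w))) = _
    rw [Pi.single_eq_same, ext_eR627]

/-- Functions invariant under the positive scalars at every infinite place are invariant under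
the diagonal positive scalars. -/
theorem inv_zpos627 {ψ : G K → ℂ}
    (h : ∀ (w : InfinitePlace K) (z : G K), IsArchPosScalar w z → ∀ g : G K, ψ (g * z) = ψ g)
    (t : ℝ) (g : G K) : ψ (g * zpos627 t) = ψ g := by
  have key : ∀ (S : Finset (InfinitePlace K)) (g : G K),
      ψ (g * scal627 (∏ w ∈ S, expIdele627 (Pi.single w t))) = ψ g := by
    intro S
    induction S using Finset.induction_on with
    | empty => intro g; simp
    | insert a S ha ih =>
      intro g
      rw [Finset.prod_insert ha, map_mul, ← mul_assoc, ih]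
      exact h a _ (isArchPosScalar_zloc627 a t) g
  unfold zpos627
  rw [expIdele627_const_eq_prod]
  exact key _ g

/-! ## The ray -/

theorem infComp_diag627 (w : InfinitePlace K) (u : (Adl K)ˣ) :
    infComp w (diag627 u) = !![InfinitePlace.Completion.extensionEmbedding w ((u : Adl K).1 w), 0;
      0, 1] := by
  refine Matrix.ext fun i j => ?_
  show InfinitePlace.Completion.extensionEmbedding w
    ((Matrix.diagonal ![(u : Adl K), 1] i j).1 w) = _
  fin_cases i <;> fin_cases j
  · simp
  · simp only [Fin.zero_eta, Fin.isValue, Fin.mk_one, ne_eq, zero_ne_one, not_false_eq_true,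
      Matrix.diagonal_apply_ne, Matrix.of_apply, Matrix.cons_val', Matrix.cons_val_one,
      Matrix.cons_val_fin_one, Matrix.cons_val_zero]
    exact map_zero (InfinitePlace.Completion.extensionEmbedding w)
  · simp only [Fin.zero_eta, Fin.isValue, Fin.mk_one, ne_eq, one_ne_zero, not_false_eq_true,
      Matrix.diagonal_apply_ne, Matrix.of_apply, Matrix.cons_val', Matrix.cons_val_one,
      Matrix.cons_val_fin_one, Matrix.cons_val_zero]
    exact map_zero (InfinitePlace.Completion.extensionEmbedding w)
  · simp only [Fin.mk_one, Fin.isValue, Matrix.diagonal_apply_eq, Matrix.cons_val_one,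
      Matrix.cons_val_fin_one, Matrix.of_apply, Matrix.cons_val']
    exact map_one (InfinitePlace.Completion.extensionEmbedding w)

theorem isRay_eq627 {a : G K} {s : ℝ} (hs : 0 < s) (h : T1.IsRay K a s) :
    a = ray627 (Real.log s) := by
  apply Units.ext
  refine Matrix.ext fun i j => adl_ext627 (fun w => ?_) (fun v => ?_)
  · apply ext_inj627 w
    have h1 : infComp w a i j = (!![(s : ℂ), 0; 0, 1] : Matrix (Fin 2) (Fin 2) ℂ) i j := by
      rw [h.2 w]
    have h2 : infComp w (ray627 (Real.log s)) i j =
        (!![(s : ℂ), 0; 0, 1] : Matrix (Fin 2) (Fin 2) ℂ) i j := by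
      have hu : InfinitePlace.Completion.extensionEmbedding w
          (((expIdele627 (fun _ => Real.log s) : (Adl K)ˣ) : Adl K).1 w) = (s : ℂ) := by
        show InfinitePlace.Completion.extensionEmbedding w (eR627 w (Real.exp (Real.log s))) = _
        rw [Real.exp_log hs, ext_eR627]
      unfold ray627
      rw [infComp_diag627, hu]
    exact h1.trans h2.symm
  · have h1 : finComp v a i j = (1 : Matrix (Fin 2) (Fin 2) (v.adicCompletion K)) i j := by
      rw [h.1 v]
    refine h1.trans ?_
    show _ = (Matrix.diagonal ![((expIdele627 (fun _ => Real.log s) : (Adl K)ˣ) : Adl K), 1] i j).2 v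
    fin_cases i <;> fin_cases j
    · rfl
    · rfl
    · rfl
    · rfl

/-! ## Central elements and rational scalars -/

theorem isCentral_eq627 {z : G K} (h : T1.IsCentral K z) : ∃ u : (Adl K)ˣ, z = scal627 u := by
  obtain ⟨c, hc⟩ := h
  have h0 : ((z : Matrix (Fin 2) (Fin 2) (Adl K)) * ((z⁻¹ : G K) : Matrix (Fin 2) (Fin 2) (Adl K)))
      0 0 = 1 := by
    rw [← Units.val_mul, mul_inv_cancel]; rfl
  have h1 : c * ((z⁻¹ : G K) : Matrix (Fin 2) (Fin 2) (Adl K)) 0 0 = 1 := by
    rw [hc, Matrix.diagonal_mul] at h0
    exact h0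
  refine ⟨Units.mkOfMulEqOne c _ h1, Units.ext ?_⟩
  rw [scal627_val]
  exact hc

/-- The scalar matrix of `ξ ∈ Kˣ`. -/
def ratScal627 : Kˣ →* GL (Fin 2) K := Units.map (Matrix.scalar (Fin 2)).toMonoidHom

theorem ratG_ratScal627 (ξ : Kˣ) : T1.ratG K (ratScal627 ξ) = scal627 (T1.ratUnit K ξ) := by
  apply Units.ext
  refine Matrix.ext fun i j => ?_
  show algebraMap K (Adl K) (Matrix.diagonal (fun _ : Fin 2 => (ξ : K)) i j) =
    Matrix.diagonal (fun _ : Fin 2 => algebraMap K (Adl K) (ξ : K)) i j
  by_cases h : i = j
  · subst h; simp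
  · simp [Matrix.diagonal_apply_ne _ h]

/-! ## The module of the determinant -/

/-- `‖det g‖_𝔸`. -/
def nd627 (g : G K) : ℝ := T1.adNorm K (Matrix.det (g : Matrix (Fin 2) (Fin 2) (Adl K)))

theorem nd627_eq (g : G K) :
    nd627 g = T1.adNorm K ((Matrix.GeneralLinearGroup.det g : (Adl K)ˣ) : Adl K) := rfl

theorem mem_slab_iff627 (g : G K) : g ∈ T1.slab K ↔ 1 ≤ nd627 g ∧ nd627 g < 2 := Iff.rfl

theorem nd627_pos (hN : T1.AdNormC K) (g : G K) : 0 < nd627 g := by
  rw [nd627_eq]
  exact hN.1 (Matrix.GeneralLinearGroup.det g)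

theorem nd627_mul (hN : T1.AdNormC K) (g h : G K) : nd627 (g * h) = nd627 g * nd627 h := by
  rw [nd627_eq, nd627_eq, nd627_eq, map_mul]
  exact hN.2.1 _ _

theorem continuous_nd627 (hN : T1.AdNormC K) : Continuous (nd627 (K := K)) := by
  have h : Continuous fun g : G K =>
      T1.adNorm K ((Matrix.GeneralLinearGroup.det g : (Adl K)ˣ) : Adl K) :=
    hN.2.2.2.comp Matrix.GeneralLinearGroup.continuous_det
  have e : (nd627 (K := K)) = fun g : G K =>
      T1.adNorm K ((Matrix.GeneralLinearGroup.det g : (Adl K)ˣ) : Adl K) := funext nd627_eq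
  rw [e]
  exact h

theorem adNorm_expIdele627 (t : InfinitePlace K → ℝ) :
    T1.adNorm K ((expIdele627 t : (Adl K)ˣ) : Adl K) = ∏ w, Real.exp (t w) ^ w.mult := by
  unfold T1.adNorm
  have h1 : ∀ v : HeightOneSpectrum (𝓞 K),
      ‖(((expIdele627 t : (Adl K)ˣ) : Adl K).2 v)‖ = 1 := by
    intro v
    show ‖((1 : FiniteAdeleRing (𝓞 K) K) v)‖ = 1
    exact norm_one
  rw [finprod_eq_one_of_forall_eq_one h1, mul_one]
  refine Finset.prod_congr rfl fun w _ => ?_
  show ‖eR627 w (Real.exp (t w))‖ ^ w.mult = _
  rw [norm_eR627, abs_of_pos (Real.exp_pos _)]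

theorem adNorm_expIdele627_const (t : ℝ) :
    T1.adNorm K ((expIdele627 (fun _ => t) : (Adl K)ˣ) : Adl K) =
      Real.exp (Module.finrank ℚ K * t) := by
  rw [adNorm_expIdele627, Finset.prod_pow_eq_pow_sum, InfinitePlace.sum_mult_eq, ← Real.exp_nat_mul]

theorem nd627_scal (u : (Adl K)ˣ) (hN : T1.AdNormC K) :
    nd627 (scal627 u) = T1.adNorm K (u : Adl K) ^ 2 := by
  unfold nd627
  rw [scal627_val, Matrix.det_diagonal, Fin.prod_univ_two, ← Units.val_mul, hN.2.1, sq]

theorem nd627_zpos (hN : T1.AdNormC K) (t : ℝ) :
    nd627 (zpos627 (K := K) t) = Real.exp (2 * Module.finrank ℚ K * t) := by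
  unfold zpos627
  rw [nd627_scal _ hN, adNorm_expIdele627_const, ← Real.exp_nat_mul]
  congr 1; push_cast; ring

end Fermat.Agent.LT.T2.H627

end
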