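import Mathlib
import Fermat.Agent.LT.H556.A0
import Fermat.Agent.LT.T1.Spec
import Fermat.Agent.LT.T2.Spec
import Fermat.Agent.LT.T2.H627.Adelic

/-!
# Row LT, tower T2, leaf T2.13 (helper627): integrals over compact sets against the frame

For a compact `Q ⊆ GL₂(𝔸_K)` there is `M` with `∫_Q h ≤ M ∫_D h` for every measurable `h ≥ 0`
which is left `GL₂(K)`-invariant and right `Z⁺`-invariant.  OFF-MAIN.
-/

set_option autoImplicit false
set_option linter.unusedSectionVars false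

open IsDedekindDomain NumberField MeasureTheory
open Fermat.Agent.LT.H556.A0
open scoped Classical ENNReal Pointwise

noncomputable section

namespace Fermat.Agent.LT.T2.H627

variable {K : Type} [Field K] [NumberField K]

attribute [local instance] Fermat.Agent.LT.T2.borelG

/-- The Borel space structure of `G K` (for the local instance `T2.borelG`). -/
theorem borelSpaceG627 : BorelSpace (G K) := ⟨rfl⟩

attribute [local instance] borelSpaceG627

example : IsTopologicalGroup (G K) := inferInstance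
example : MeasurableMul (G K) := inferInstance
example : MeasurableInv (G K) := inferInstance

theorem countable_K627 : Countable K := by
  have : Module.Finite ℚ K := inferInstance
  let b := Module.finBasis ℚ K
  exact b.equivFun.toEquiv.injective.countable

theorem countable_GL627 : Countable (GL (Fin 2) K) := by
  have := countable_K627 (K := K)
  have : Countable (Matrix (Fin 2) (Fin 2) K) := (inferInstance : Countable (Fin 2 → Fin 2 → K))
  exact Function.Injective.countable (f := fun g : GL (Fin 2) K => (g : Matrix (Fin 2) (Fin 2) K))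
    (fun _ _ h => Units.ext h)

theorem ratG_injective627 : Function.Injective (T1.ratG K) := by
  intro a b h
  apply Units.ext
  refine Matrix.ext fun i j => ?_
  have h1 := congrArg (fun g : G K => (g : Matrix (Fin 2) (Fin 2) (Adl K)) i j) h
  exact NumberField.AdeleRing.algebraMap_injective (𝓞 K) K h1

theorem finite_rat_inter627 (hD : T1.DiscreteC K) {C : Set (G K)} (hC : IsCompact C) :
    {γ : GL (Fin 2) K | T1.ratG K γ ∈ C}.Finite := by
  have hcl : IsClosed (T1.Gam K : Set (G K)) := hD.2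
  have hdisc : DiscreteTopology (T1.Gam K : Set (G K)) := hD.1
  have h1 : IsCompact ((T1.Gam K : Set (G K)) ∩ C) := hC.inter_left hcl
  have h2 : IsDiscrete ((T1.Gam K : Set (G K)) ∩ C : Set (G K)) :=
    (isDiscrete_iff_discreteTopology.mpr hdisc).mono Set.inter_subset_left
  have h3 : ((T1.Gam K : Set (G K)) ∩ C).Finite := h1.finite h2
  have h4 : {γ : GL (Fin 2) K | T1.ratG K γ ∈ C} ⊆ (T1.ratG K) ⁻¹' ((T1.Gam K : Set (G K)) ∩ C) :=
    fun γ hγ => ⟨⟨γ, rfl⟩, hγ⟩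
  exact (h3.preimage (Set.injOn_of_injective ratG_injective627)).subset h4

/-- Change of variables `y = γ g` in one piece. -/
theorem piece_gen627 (F : Frame K) {Q E : Set (G K)} (hQm : MeasurableSet Q)
    (hEm : MeasurableSet E) (h : G K → ℝ≥0∞)
    (a : G K) (hinv : ∀ g : G K, h (a * g) = h g) :
    ∫⁻ g in Q ∩ (fun g => a * g) ⁻¹' E, h g ∂F.μ =
      ∫⁻ y in E, ((fun y => a⁻¹ * y) ⁻¹' Q).indicator h y ∂F.μ := by
  have := F.haar
  have hAm : MeasurableSet (Q ∩ (fun g => a * g) ⁻¹' E) :=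
    hQm.inter ((measurable_const_mul a) hEm)
  rw [← lintegral_indicator hAm, ← lintegral_indicator hEm,
    ← lintegral_mul_left_eq_self (E.indicator (((fun y => a⁻¹ * y) ⁻¹' Q).indicator h)) a]
  refine lintegral_congr fun g => ?_
  have e1 : (a * g ∈ (fun y => a⁻¹ * y) ⁻¹' Q) ↔ g ∈ Q := by
    rw [Set.mem_preimage, inv_mul_cancel_left]
  by_cases hg1 : g ∈ Q <;> by_cases hg2 : a * g ∈ E
  · rw [Set.indicator_of_mem (show g ∈ Q ∩ (fun g => a * g) ⁻¹' E from ⟨hg1, hg2⟩),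
      Set.indicator_of_mem hg2, Set.indicator_of_mem (e1.mpr hg1), hinv]
  · rw [Set.indicator_of_notMem (fun hh' : g ∈ Q ∩ (fun g => a * g) ⁻¹' E => hg2 hh'.2),
      Set.indicator_of_notMem hg2]
  · rw [Set.indicator_of_notMem (fun hh' : g ∈ Q ∩ (fun g => a * g) ⁻¹' E => hg1 hh'.1),
      Set.indicator_of_mem hg2, Set.indicator_of_notMem (fun hh' => hg1 (e1.mp hh'))]
  · rw [Set.indicator_of_notMem (fun hh' : g ∈ Q ∩ (fun g => a * g) ⁻¹' E => hg2 hh'.2),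
      Set.indicator_of_notMem hg2]

theorem piece_eq627 (F : Frame K) {Q : Set (G K)} (hQm : MeasurableSet Q) (h : G K → ℝ≥0∞)
    (a : G K) (hinv : ∀ g : G K, h (a * g) = h g) :
    ∫⁻ g in Q ∩ (fun g => a * g) ⁻¹' F.D, h g ∂F.μ =
      ∫⁻ y in F.D, ((fun y => a⁻¹ * y) ⁻¹' Q).indicator h y ∂F.μ :=
  piece_gen627 F hQm F.meas h a hinv

/-- The multiplicity of the translates of a compact set. -/
theorem mult_le627 {Q : Set (G K)} (hfin : {δ : GL (Fin 2) K | T1.ratG K δ ∈ Q * Q⁻¹}.Finite)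
    (h : G K → ℝ≥0∞) (y : G K) :
    ∑' γ : GL (Fin 2) K, ((fun y => (T1.ratG K γ)⁻¹ * y) ⁻¹' Q).indicator h y ≤
      (hfin.toFinset.card : ℝ≥0∞) * h y := by
  by_cases hy : ∃ γ₀ : GL (Fin 2) K, (T1.ratG K γ₀)⁻¹ * y ∈ Q
  · obtain ⟨γ₀, hγ₀⟩ := hy
    have hsupp : ∀ γ ∉ hfin.toFinset.image (fun δ => γ₀ * δ⁻¹),
        ((fun y => (T1.ratG K γ)⁻¹ * y) ⁻¹' Q).indicator h y = 0 := by
      intro γ hγ
      by_contra hne
      have hyB : (T1.ratG K γ)⁻¹ * y ∈ Q := by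
        by_contra hyn
        exact hne (Set.indicator_of_notMem
          (show y ∉ (fun y => (T1.ratG K γ)⁻¹ * y) ⁻¹' Q from hyn) h)
      apply hγ
      rw [Finset.mem_image]
      refine ⟨γ⁻¹ * γ₀, ?_, ?_⟩
      · rw [Set.Finite.mem_toFinset]
        show T1.ratG K (γ⁻¹ * γ₀) ∈ Q * Q⁻¹
        rw [map_mul, map_inv]
        refine ⟨(T1.ratG K γ)⁻¹ * y, hyB, ((T1.ratG K γ₀)⁻¹ * y)⁻¹, Set.inv_mem_inv.mpr hγ₀, ?_⟩
        show (T1.ratG K γ)⁻¹ * y * ((T1.ratG K γ₀)⁻¹ * y)⁻¹ = (T1.ratG K γ)⁻¹ * T1.ratG K γ₀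
        rw [mul_inv_rev, inv_inv, mul_assoc, ← mul_assoc y, mul_inv_cancel, one_mul]
      · show γ₀ * (γ⁻¹ * γ₀)⁻¹ = γ
        rw [mul_inv_rev, inv_inv, ← mul_assoc, mul_inv_cancel, one_mul]
    rw [tsum_eq_sum hsupp]
    calc ∑ γ ∈ hfin.toFinset.image (fun δ => γ₀ * δ⁻¹),
          ((fun y => (T1.ratG K γ)⁻¹ * y) ⁻¹' Q).indicator h y
          ≤ ∑ _γ ∈ hfin.toFinset.image (fun δ => γ₀ * δ⁻¹), h y :=
          Finset.sum_le_sum fun γ _ => Set.indicator_le_self _ _ _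
      _ = ((hfin.toFinset.image (fun δ => γ₀ * δ⁻¹)).card : ℝ≥0∞) * h y := by
          rw [Finset.sum_const, nsmul_eq_mul]
      _ ≤ (hfin.toFinset.card : ℝ≥0∞) * h y := by
          have hc : ((hfin.toFinset.image (fun δ => γ₀ * δ⁻¹)).card : ℝ≥0∞) ≤
              hfin.toFinset.card := by
            exact_mod_cast Finset.card_image_le
          exact mul_le_mul' hc le_rfl
  · have : ∀ γ : GL (Fin 2) K, ((fun y => (T1.ratG K γ)⁻¹ * y) ⁻¹' Q).indicator h y = 0 :=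
      fun γ => Set.indicator_of_notMem
        (show y ∉ (fun y => (T1.ratG K γ)⁻¹ * y) ⁻¹' Q from fun hγ => hy ⟨γ, hγ⟩) h
    simp [this]

/-- **Step A**: the part of a compact set inside the slab. -/
theorem lintegral_slab_le627 (F : Frame K) (hT2 : T2Space (G K)) (hD : T1.DiscreteC K)
    {Q : Set (G K)} (hQ : IsCompact Q) :
    ∃ M : ℕ, ∀ h : G K → ℝ≥0∞, Measurable h →
      (∀ (γ : GL (Fin 2) K) (g : G K), h (T1.ratG K γ * g) = h g) →
      ∫⁻ g in Q ∩ T1.slab K, h g ∂F.μ ≤ M * ∫⁻ g in F.D, h g ∂F.μ := by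
  have := countable_GL627 (K := K)
  have hQm : MeasurableSet Q := hQ.isClosed.measurableSet
  have hfin : {δ : GL (Fin 2) K | T1.ratG K δ ∈ Q * Q⁻¹}.Finite :=
    finite_rat_inter627 hD (hQ.mul hQ.inv)
  refine ⟨hfin.toFinset.card, fun h hh hinv => ?_⟩
  have hcov : Q ∩ T1.slab K ⊆ ⋃ γ : GL (Fin 2) K, Q ∩ (fun g => T1.ratG K γ * g) ⁻¹' F.D := by
    rintro g ⟨hgQ, hgs⟩
    obtain ⟨γ, hγ, -⟩ := F.strict g hgs
    exact Set.mem_iUnion.mpr ⟨γ, hgQ, hγ⟩
  have h1 : ∫⁻ g in Q ∩ T1.slab K, h g ∂F.μ ≤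
      ∑' γ : GL (Fin 2) K, ∫⁻ g in Q ∩ (fun g => T1.ratG K γ * g) ⁻¹' F.D, h g ∂F.μ :=
    (lintegral_mono_set hcov).trans (lintegral_iUnion_le _ _)
  have h3 : ∑' γ : GL (Fin 2) K,
      ∫⁻ y in F.D, ((fun y => (T1.ratG K γ)⁻¹ * y) ⁻¹' Q).indicator h y ∂F.μ =
      ∫⁻ y in F.D, ∑' γ : GL (Fin 2) K,
        ((fun y => (T1.ratG K γ)⁻¹ * y) ⁻¹' Q).indicator h y ∂F.μ := by
    rw [lintegral_tsum]
    exact fun γ => (hh.indicator ((measurable_const_mul _) hQm)).aemeasurable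
  calc ∫⁻ g in Q ∩ T1.slab K, h g ∂F.μ
      ≤ ∑' γ : GL (Fin 2) K, ∫⁻ g in Q ∩ (fun g => T1.ratG K γ * g) ⁻¹' F.D, h g ∂F.μ := h1
    _ = ∑' γ : GL (Fin 2) K,
          ∫⁻ y in F.D, ((fun y => (T1.ratG K γ)⁻¹ * y) ⁻¹' Q).indicator h y ∂F.μ :=
        tsum_congr fun γ => piece_eq627 F hQm h _ (hinv γ)
    _ = ∫⁻ y in F.D, ∑' γ : GL (Fin 2) K,
          ((fun y => (T1.ratG K γ)⁻¹ * y) ⁻¹' Q).indicator h y ∂F.μ := h3
    _ ≤ ∫⁻ y in F.D, (hfin.toFinset.card : ℝ≥0∞) * h y ∂F.μ :=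
        lintegral_mono (mult_le627 hfin h)
    _ = (hfin.toFinset.card : ℝ≥0∞) * ∫⁻ y in F.D, h y ∂F.μ := by
        rw [lintegral_const_mul _ hh]

theorem measurableSet_slab627 (hN : T1.AdNormC K) : MeasurableSet (T1.slab K) := by
  have h : T1.slab K = nd627 ⁻¹' Set.Ico 1 2 := rfl
  rw [h]
  exact (continuous_nd627 hN).measurable measurableSet_Ico

/-- The shift into the slab `2^k ≤ ‖det‖ < 2^(k+1)`. -/
def shift627 (K : Type) [Field K] [NumberField K] (k : ℤ) : G K :=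
  zpos627 (-(k * Real.log 2) / (2 * Module.finrank ℚ K))

theorem nd627_shift (hN : T1.AdNormC K) (k : ℤ) : nd627 (shift627 K k) = ((2 : ℝ) ^ k)⁻¹ := by
  unfold shift627
  rw [nd627_zpos hN]
  have hn : (0 : ℝ) < Module.finrank ℚ K := by exact_mod_cast Module.finrank_pos
  have e : 2 * (Module.finrank ℚ K : ℝ) * (-(k * Real.log 2) / (2 * Module.finrank ℚ K)) =
      -(k * Real.log 2) := by
    field_simp
  rw [e, Real.exp_neg, mul_comm, Real.exp_mul, Real.exp_log (by norm_num), Real.rpow_intCast]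

/-- One shifted slab. -/
theorem lintegral_shift_le627 (F : Frame K) (hT2 : T2Space (G K)) (hD : T1.DiscreteC K)
    (hN : T1.AdNormC K) {Q : Set (G K)} (hQ : IsCompact Q) (a : G K) :
    ∃ M : ℕ, ∀ h : G K → ℝ≥0∞, Measurable h →
      (∀ (γ : GL (Fin 2) K) (g : G K), h (T1.ratG K γ * g) = h g) →
      (∀ g : G K, h (a * g) = h g) →
      ∫⁻ g in Q ∩ (fun g => a * g) ⁻¹' T1.slab K, h g ∂F.μ ≤ M * ∫⁻ g in F.D, h g ∂F.μ := by
  have hQm : MeasurableSet Q := hQ.isClosed.measurableSet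
  have hQ' : IsCompact ((fun y => a⁻¹ * y) ⁻¹' Q) := by
    have e : (fun y => a⁻¹ * y) ⁻¹' Q = (fun g => a * g) '' Q := by
      ext y
      constructor
      · intro hy
        exact ⟨a⁻¹ * y, hy, mul_inv_cancel_left a y⟩
      · rintro ⟨g, hg, rfl⟩
        show a⁻¹ * (a * g) ∈ Q
        rwa [inv_mul_cancel_left]
    rw [e]
    exact hQ.image (continuous_const_mul a)
  have hQ'm : MeasurableSet ((fun y => a⁻¹ * y) ⁻¹' Q) := hQ'.isClosed.measurableSet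
  obtain ⟨M, hM⟩ := lintegral_slab_le627 F hT2 hD hQ'
  refine ⟨M, fun h hh hinv ha => ?_⟩
  rw [piece_gen627 F hQm (measurableSet_slab627 hN) h a ha, lintegral_indicator hQ'm,
    Measure.restrict_restrict hQ'm]
  exact hM h hh hinv

theorem lintegral_biUnion_finset_le627 {α ι : Type*} [MeasurableSpace α] (μ : Measure α)
    (t : Finset ι) (s : ι → Set α) (f : α → ℝ≥0∞) :
    ∫⁻ a in ⋃ i ∈ t, s i, f a ∂μ ≤ ∑ i ∈ t, ∫⁻ a in s i, f a ∂μ := by
  induction t using Finset.induction_on with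
  | empty => simp
  | insert a t ha ih =>
    rw [Finset.set_biUnion_insert, Finset.sum_insert ha]
    exact (lintegral_union_le f _ _).trans (add_le_add le_rfl ih)

/-- **Step B**: a compact set against the frame. -/
theorem lintegral_compact_le627 (F : Frame K) (hT2 : T2Space (G K)) (hD : T1.DiscreteC K)
    (hN : T1.AdNormC K) {Q : Set (G K)} (hQ : IsCompact Q) :
    ∃ M : ℕ, ∀ h : G K → ℝ≥0∞, Measurable h →
      (∀ (γ : GL (Fin 2) K) (g : G K), h (T1.ratG K γ * g) = h g) →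
      (∀ (t : ℝ) (g : G K), h (g * zpos627 t) = h g) →
      ∫⁻ g in Q, h g ∂F.μ ≤ M * ∫⁻ g in F.D, h g ∂F.μ := by
  have hUo : ∀ k : ℤ, IsOpen (nd627 (K := K) ⁻¹' Set.Ioo ((2 : ℝ) ^ (k - 1)) ((2 : ℝ) ^ (k + 1))) :=
    fun k => (continuous_nd627 hN).isOpen_preimage _ isOpen_Ioo
  have hcov : Q ⊆ ⋃ k : ℤ, nd627 (K := K) ⁻¹' Set.Ioo ((2 : ℝ) ^ (k - 1)) ((2 : ℝ) ^ (k + 1)) := by
    intro g _
    obtain ⟨k, hk⟩ := exists_mem_Ico_zpow (nd627_pos hN g) (by norm_num : (1 : ℝ) < 2)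
    refine Set.mem_iUnion.mpr ⟨k, ?_, hk.2⟩
    exact lt_of_lt_of_le (zpow_lt_zpow_right₀ (by norm_num) (by omega)) hk.1
  obtain ⟨t, ht⟩ := hQ.elim_finite_subcover _ hUo hcov
  have hmem : ∀ (k : ℤ) (g : G K), (2 : ℝ) ^ k ≤ nd627 g → nd627 g < (2 : ℝ) ^ (k + 1) →
      shift627 K k * g ∈ T1.slab K := by
    intro k g h1 h2
    have hpos : (0 : ℝ) < 2 ^ k := zpow_pos (by norm_num) k
    rw [mem_slab_iff627, nd627_mul hN, nd627_shift hN]
    constructor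
    · rw [le_inv_mul_iff₀ hpos, mul_one]; exact h1
    · rw [inv_mul_lt_iff₀ hpos, ← zpow_add_one₀ (by norm_num : (2 : ℝ) ≠ 0)]; exact h2
  have hW : ∀ k : ℤ, Q ∩ nd627 (K := K) ⁻¹' Set.Ioo ((2 : ℝ) ^ (k - 1)) ((2 : ℝ) ^ (k + 1)) ⊆
      (Q ∩ (fun g => shift627 K (k - 1) * g) ⁻¹' T1.slab K) ∪
        (Q ∩ (fun g => shift627 K k * g) ⁻¹' T1.slab K) := by
    rintro k g ⟨hgQ, hg1, hg2⟩
    by_cases hc : nd627 g < (2 : ℝ) ^ k
    · left
      refine ⟨hgQ, hmem (k - 1) g hg1.le ?_⟩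
      rw [sub_add_cancel]; exact hc
    · right
      exact ⟨hgQ, hmem k g (not_lt.mp hc) hg2⟩
  choose M hM using fun k : ℤ => lintegral_shift_le627 F hT2 hD hN hQ (shift627 K k)
  refine ⟨∑ k ∈ t, (M (k - 1) + M k), fun h hh hinv hz => ?_⟩
  have hsh : ∀ (k : ℤ) (g : G K), h (shift627 K k * g) = h g := by
    intro k g
    unfold shift627
    rw [zpos627_comm]
    exact hz _ g
  have hsub : Q ⊆ ⋃ k ∈ t, ((Q ∩ (fun g => shift627 K (k - 1) * g) ⁻¹' T1.slab K) ∪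
        (Q ∩ (fun g => shift627 K k * g) ⁻¹' T1.slab K)) := by
    intro g hg
    obtain ⟨k, hk, hgk⟩ := Set.mem_iUnion₂.mp (ht hg)
    exact Set.mem_iUnion₂.mpr ⟨k, hk, hW k ⟨hg, hgk⟩⟩
  calc ∫⁻ g in Q, h g ∂F.μ
      ≤ ∫⁻ g in ⋃ k ∈ t, ((Q ∩ (fun g => shift627 K (k - 1) * g) ⁻¹' T1.slab K) ∪
        (Q ∩ (fun g => shift627 K k * g) ⁻¹' T1.slab K)), h g ∂F.μ := lintegral_mono_set hsub
    _ ≤ ∑ k ∈ t, ∫⁻ g in ((Q ∩ (fun g => shift627 K (k - 1) * g) ⁻¹' T1.slab K) ∪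
        (Q ∩ (fun g => shift627 K k * g) ⁻¹' T1.slab K)), h g ∂F.μ :=
        lintegral_biUnion_finset_le627 _ _ _ _
    _ ≤ ∑ k ∈ t, ((M (k - 1) : ℝ≥0∞) * ∫⁻ g in F.D, h g ∂F.μ +
          (M k : ℝ≥0∞) * ∫⁻ g in F.D, h g ∂F.μ) := by
        refine Finset.sum_le_sum fun k _ => ?_
        exact (lintegral_union_le h _ _).trans
          (add_le_add (hM (k - 1) h hh hinv (hsh (k - 1))) (hM k h hh hinv (hsh k)))
    _ = ((∑ k ∈ t, (M (k - 1) + M k) : ℕ) : ℝ≥0∞) * ∫⁻ g in F.D, h g ∂F.μ := by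
        push_cast
        rw [Finset.sum_mul]
        refine Finset.sum_congr rfl fun k _ => ?_
        rw [add_mul]

end Fermat.Agent.LT.T2.H627

end
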