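import Mathlib
import Fermat.Agent.LT.H556.A0
import Fermat.Agent.LT.T1.Spec
import Fermat.Agent.LT.T2.Spec
import Fermat.Agent.LT.T2.H627.Adelic
import Fermat.Agent.LT.T2.H627.Meas

/-!
# Row LT, tower T2, leaf T2.13 (helper627): constant terms exist

Every function on `GL₂(𝔸_K)` which is left invariant under the rational upper unipotent
matrices has a constant term in the sense of `T2.IsConstTerm`.  OFF-MAIN.
-/

set_option autoImplicit false
set_option linter.unusedSectionVars false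
set_option linter.style.haveILetI false

open IsDedekindDomain NumberField MeasureTheory
open Fermat.Agent.LT.H556.A0
open scoped Classical ENNReal Pointwise

noncomputable section

namespace Fermat.Agent.LT.T2.H627

variable {K : Type} [Field K] [NumberField K]

/-- The upper unipotent matrix `[[1, x], [0, 1]]`. -/
def nn627 (x : Adl K) : G K := Matrix.GeneralLinearGroup.upperRightHom x

theorem nn627_val (x : Adl K) :
    ((nn627 x : G K) : Matrix (Fin 2) (Fin 2) (Adl K)) = !![1, x; 0, 1] := rfl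

theorem nn627_add (x y : Adl K) : nn627 (x + y) = nn627 x * nn627 y :=
  Matrix.GeneralLinearGroup.upperRightHom.map_add_eq_mul x y

theorem nn627_rat (ξ : K) :
    nn627 (algebraMap K (Adl K) ξ) = T1.ratG K (Matrix.GeneralLinearGroup.upperRightHom ξ) := by
  apply Units.ext
  refine Matrix.ext fun i j => ?_
  show (!![1, algebraMap K (Adl K) ξ; 0, 1] : Matrix (Fin 2) (Fin 2) (Adl K)) i j =
    algebraMap K (Adl K) ((!![1, ξ; 0, 1] : Matrix (Fin 2) (Fin 2) K) i j)
  fin_cases i <;> fin_cases j <;> simp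

theorem countable_princ627 :
    Countable ((algebraMap K (Adl K)).toAddMonoidHom.range) := by
  have := countable_K627 (K := K)
  have hs : Function.Surjective
      (fun ξ : K => (⟨algebraMap K (Adl K) ξ, ⟨ξ, rfl⟩⟩ :
        (algebraMap K (Adl K)).toAddMonoidHom.range)) := by
    rintro ⟨_, ξ, rfl⟩
    exact ⟨ξ, rfl⟩
  exact hs.countable

/-- **Existence of the constant term.** -/
theorem exists_constTerm627 (hLC : T1.LocCompC K) (hFD : T1.AddFundDomC K) (ψ : G K → ℂ)
    (hinv : ∀ (γ : GL (Fin 2) K) (g : G K), ψ (T1.ratG K γ * g) = ψ g) :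
    ∃ Ψ : G K → ℂ, IsConstTerm ψ Ψ := by
  letI : MeasurableSpace (Adl K) := borel (Adl K)
  haveI : BorelSpace (Adl K) := ⟨rfl⟩
  haveI : LocallyCompactSpace (Adl K) := hLC.1.1
  haveI : T2Space (Adl K) := hLC.1.2.1
  haveI : SecondCountableTopology (Adl K) := hLC.1.2.2
  haveI := countable_princ627 (K := K)
  -- the reference measure and domain
  set μ₀ : Measure (Adl K) := Measure.addHaar with hμ₀
  obtain ⟨D₀, hD₀m, hD₀, -, hD₀pos, hD₀fin⟩ := hFD μ₀ inferInstance
  refine ⟨fun g => (((μ₀ D₀).toReal : ℝ) : ℂ)⁻¹ * ∫ x in D₀, ψ (nn627 x * g) ∂μ₀, ?_⟩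
  intro μ hμ D hD n hn g
  haveI := hμ
  have hn' : ∀ x, n x = nn627 x := fun x => Units.ext ((hn x).trans (nn627_val x).symm)
  simp_rw [hn']
  -- invariance of the integrand
  have hper : ∀ (ξ : (algebraMap K (Adl K)).toAddMonoidHom.range) (x : Adl K),
      ψ (nn627 (ξ +ᵥ x) * g) = ψ (nn627 x * g) := by
    rintro ⟨_, ξ, rfl⟩ x
    show ψ (nn627 (algebraMap K (Adl K) ξ + x) * g) = _
    rw [nn627_add, nn627_rat, mul_assoc, hinv]
  -- comparison of the measures
  have hc : μ = Measure.addHaarScalarFactor μ μ₀ • μ₀ := Measure.isAddLeftInvariant_eq_smul μ μ₀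
  have hcpos : 0 < Measure.addHaarScalarFactor μ μ₀ :=
    Measure.addHaarScalarFactor_pos_of_isAddHaarMeasure μ μ₀
  set c := Measure.addHaarScalarFactor μ μ₀ with hcdef
  have hcne : (c : ℝ≥0∞) ≠ 0 := by exact_mod_cast hcpos.ne'
  have hac : μ₀ ≪ μ := by
    have h := Measure.absolutelyContinuous_smul (μ := μ₀) hcne
    have e : (c : ℝ≥0∞) • μ₀ = μ := by rw [hc]; rfl
    rwa [e] at h
  have hD' : IsAddFundamentalDomain ((algebraMap K (Adl K)).toAddMonoidHom.range) D μ₀ :=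
    hD.mono hac
  have h1 : ∫ x in D, ψ (nn627 x * g) ∂μ₀ = ∫ x in D₀, ψ (nn627 x * g) ∂μ₀ :=
    hD'.setIntegral_eq hD₀ hper
  have h2 : μ₀ D = μ₀ D₀ := hD'.measure_eq hD₀
  have h3 : ∫ x in D, ψ (nn627 x * g) ∂μ = (c : ℝ) • ∫ x in D, ψ (nn627 x * g) ∂μ₀ := by
    conv_lhs => rw [hc]
    rw [Measure.restrict_smul, integral_smul_nnreal_measure]
    rfl
  have h4 : (μ D).toReal = (c : ℝ) * (μ₀ D₀).toReal := by
    conv_lhs => rw [hc]
    rw [Measure.smul_apply, ← h2]
    simp [ENNReal.toReal_mul]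
  have hne : ((μ₀ D₀).toReal : ℂ) ≠ 0 := by
    have : (μ₀ D₀).toReal ≠ 0 := (ENNReal.toReal_pos hD₀pos.ne' hD₀fin.ne).ne'
    exact_mod_cast this
  rw [h3, h1, h4]
  show (c : ℝ) • ∫ x in D₀, ψ (nn627 x * g) ∂μ₀ =
    (((c : ℝ) * (μ₀ D₀).toReal : ℝ) : ℂ) *
      ((((μ₀ D₀).toReal : ℝ) : ℂ)⁻¹ * ∫ x in D₀, ψ (nn627 x * g) ∂μ₀)
  rw [Complex.real_smul]
  push_cast
  field_simp

end Fermat.Agent.LT.T2.H627

end
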