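import Mathlib
import Fermat.Agent.LT.H556.A0
import Fermat.Agent.LT.T1.Spec
import Fermat.Agent.LT.T2.Spec
import Fermat.Agent.LT.T2.H627.Adelic
import Fermat.Agent.LT.T2.H627.Meas

/-!
# Row LT, tower T2, leaf T2.13 (helper627): the convolution on a compact set

`|R(f)ψ(x)| ≤ C ‖ψ‖₂` for `x` in a compact set, `ψ` automorphic.  OFF-MAIN.
-/

set_option autoImplicit false
set_option linter.unusedSectionVars false

open IsDedekindDomain NumberField MeasureTheory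
open Fermat.Agent.LT.H556.A0
open scoped Classical ENNReal Pointwise

noncomputable section

namespace Fermat.Agent.LT.T2.H627

variable {K : Type} [Field K] [NumberField K]

attribute [local instance] Fermat.Agent.LT.T2.borelG
attribute [local instance] borelSpaceG627

theorem nsq_eq627 (F : Frame K) (ψ : G K → ℂ) (hψ : Continuous ψ) :
    nsq F ψ = (∫⁻ g in F.D, ‖ψ g‖ₑ ^ 2 ∂F.μ).toReal := by
  unfold nsq pair
  have e : ∀ g, ψ g * (starRingEnd ℂ) (ψ g) = ((‖ψ g‖ ^ 2 : ℝ) : ℂ) := by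
    intro g
    rw [Complex.mul_conj, Complex.normSq_eq_norm_sq]
  simp_rw [e]
  have hm : AEStronglyMeasurable (fun g => ‖ψ g‖ ^ 2) (F.μ.restrict F.D) :=
    (hψ.norm.pow 2).aestronglyMeasurable
  rw [integral_complex_ofReal, Complex.ofReal_re,
    integral_eq_lintegral_of_nonneg_ae (Filter.Eventually.of_forall fun g => by positivity) hm]
  congr 1
  refine lintegral_congr fun g => ?_
  rw [ENNReal.ofReal_pow (norm_nonneg _), ofReal_norm]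

theorem nsq_nonneg627 (F : Frame K) (ψ : G K → ℂ) (hψ : Continuous ψ) : 0 ≤ nsq F ψ := by
  rw [nsq_eq627 F ψ hψ]; exact ENNReal.toReal_nonneg

theorem lintegral_D_lt_top627 (F : Frame K) (ψ : G K → ℂ) (hb : ∃ C : ℝ, ∀ g, ‖ψ g‖ ≤ C) :
    ∫⁻ g in F.D, ‖ψ g‖ₑ ^ 2 ∂F.μ < ⊤ := by
  obtain ⟨C, hC⟩ := hb
  have h1 : ∀ g, ‖ψ g‖ₑ ^ 2 ≤ ENNReal.ofReal C ^ 2 := by
    intro g
    have : ‖ψ g‖ₑ ≤ ENNReal.ofReal C := by
      rw [← ofReal_norm]; exact ENNReal.ofReal_le_ofReal (hC g)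
    exact pow_le_pow_left' this 2
  calc ∫⁻ g in F.D, ‖ψ g‖ₑ ^ 2 ∂F.μ ≤ ∫⁻ _g in F.D, ENNReal.ofReal C ^ 2 ∂F.μ :=
        lintegral_mono h1
    _ = ENNReal.ofReal C ^ 2 * F.μ F.D := by rw [setLIntegral_const]
    _ < ⊤ := ENNReal.mul_lt_top (ENNReal.pow_lt_top ENNReal.ofReal_lt_top) F.fin

theorem lintegral_sq_lt_top627 (F : Frame K) (f : G K → ℂ) (hf : Continuous f)
    (hc : HasCompactSupport f) : ∫⁻ g, ‖f g‖ₑ ^ 2 ∂F.μ < ⊤ := by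
  have := F.haar
  obtain ⟨C, hC⟩ := hf.bounded_above_of_compact_support hc
  have hS : IsCompact (tsupport f) := hc
  have h1 : ∀ g, ‖f g‖ₑ ^ 2 ≤ (tsupport f).indicator (fun _ => ENNReal.ofReal C ^ 2) g := by
    intro g
    by_cases hg : g ∈ tsupport f
    · rw [Set.indicator_of_mem hg]
      have : ‖f g‖ₑ ≤ ENNReal.ofReal C := by
        rw [← ofReal_norm]; exact ENNReal.ofReal_le_ofReal (hC g)
      exact pow_le_pow_left' this 2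
    · rw [Set.indicator_of_notMem hg, image_eq_zero_of_notMem_tsupport hg]
      simp
  calc ∫⁻ g, ‖f g‖ₑ ^ 2 ∂F.μ
      ≤ ∫⁻ g, (tsupport f).indicator (fun _ => ENNReal.ofReal C ^ 2) g ∂F.μ := lintegral_mono h1
    _ = ENNReal.ofReal C ^ 2 * F.μ (tsupport f) := by
        rw [lintegral_indicator (isClosed_tsupport f).measurableSet, setLIntegral_const]
    _ < ⊤ := ENNReal.mul_lt_top (ENNReal.pow_lt_top ENNReal.ofReal_lt_top) hS.measure_lt_top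

/-- Cauchy--Schwarz for the convolution. -/
theorem enorm_conv_le627 (F : Frame K) (f ψ : G K → ℂ) (hf : Continuous f) (hψ : Continuous ψ)
    (x : G K) :
    ‖conv F f ψ x‖ₑ ≤
      (∫⁻ y in (fun y => x⁻¹ * y) ⁻¹' tsupport f, ‖ψ y‖ₑ ^ 2 ∂F.μ) ^ (1 / 2 : ℝ) *
        (∫⁻ h, ‖f h‖ₑ ^ 2 ∂F.μ) ^ (1 / 2 : ℝ) := by
  have := F.haar
  have hSm : MeasurableSet (tsupport f) := (isClosed_tsupport f).measurableSet
  have hS'm : MeasurableSet ((fun y => x⁻¹ * y) ⁻¹' tsupport f) := (measurable_const_mul _) hSm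
  have hψx : Measurable fun h => ‖ψ (x * h)‖ₑ :=
    (hψ.comp (continuous_const_mul x)).measurable.enorm
  have h1 : ‖conv F f ψ x‖ₑ ≤ ∫⁻ h, ‖ψ (x * h) * f h‖ₑ ∂F.μ :=
    enorm_integral_le_lintegral_enorm _
  have h2 : ∀ h, ‖ψ (x * h) * f h‖ₑ =
      (((tsupport f).indicator fun h => ‖ψ (x * h)‖ₑ) * fun h => ‖f h‖ₑ) h := by
    intro h
    rw [Pi.mul_apply, enorm_mul]
    by_cases hh : h ∈ tsupport f
    · rw [Set.indicator_of_mem hh]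
    · rw [Set.indicator_of_notMem hh, image_eq_zero_of_notMem_tsupport hh]
      simp
  have h3 := ENNReal.lintegral_mul_le_Lp_mul_Lq F.μ Real.HolderConjugate.two_two
    (f := (tsupport f).indicator fun h => ‖ψ (x * h)‖ₑ) (g := fun h => ‖f h‖ₑ)
    (hψx.indicator hSm).aemeasurable hf.measurable.enorm.aemeasurable
  have h4 : ∫⁻ h, ((tsupport f).indicator (fun h => ‖ψ (x * h)‖ₑ) h) ^ (2 : ℝ) ∂F.μ =
      ∫⁻ y in (fun y => x⁻¹ * y) ⁻¹' tsupport f, ‖ψ y‖ₑ ^ 2 ∂F.μ := by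
    rw [← lintegral_indicator hS'm,
      ← lintegral_mul_left_eq_self
        (((fun y => x⁻¹ * y) ⁻¹' tsupport f).indicator fun y => ‖ψ y‖ₑ ^ 2) x]
    refine lintegral_congr fun h => ?_
    have e1 : (x * h ∈ (fun y => x⁻¹ * y) ⁻¹' tsupport f) ↔ h ∈ tsupport f := by
      rw [Set.mem_preimage, inv_mul_cancel_left]
    by_cases hh : h ∈ tsupport f
    · rw [Set.indicator_of_mem hh, Set.indicator_of_mem (e1.mpr hh), ENNReal.rpow_two]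
    · rw [Set.indicator_of_notMem hh, Set.indicator_of_notMem (fun h' => hh (e1.mp h'))]
      simp
  have h5 : ∫⁻ h, ‖f h‖ₑ ^ (2 : ℝ) ∂F.μ = ∫⁻ h, ‖f h‖ₑ ^ 2 ∂F.μ := by
    refine lintegral_congr fun h => ?_
    rw [ENNReal.rpow_two]
  rw [h4, h5] at h3
  calc ‖conv F f ψ x‖ₑ ≤ ∫⁻ h, ‖ψ (x * h) * f h‖ₑ ∂F.μ := h1
    _ = ∫⁻ h, (((tsupport f).indicator fun h => ‖ψ (x * h)‖ₑ) * fun h => ‖f h‖ₑ) h ∂F.μ :=
        lintegral_congr h2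
    _ ≤ _ := h3

/-- **The estimate on a compact set.** -/
theorem conv_compact_le627 (F : Frame K) (hT2 : T2Space (G K)) (hD : T1.DiscreteC K)
    (hN : T1.AdNormC K) (𝔫 : Ideal (𝓞 K)) (f : G K → ℂ) (hf : Continuous f)
    (hc : HasCompactSupport f) {Ω : Set (G K)} (hΩ : IsCompact Ω) :
    ∃ C : ℝ, 0 ≤ C ∧ ∀ ψ : G K → ℂ, IsAutFn 𝔫 ψ →
      ∀ x ∈ Ω, ‖conv F f ψ x‖ ≤ C * Real.sqrt (nsq F ψ) := by
  have hQ : IsCompact (Ω * tsupport f) := hΩ.mul hc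
  obtain ⟨M, hM⟩ := lintegral_compact_le627 F hT2 hD hN hQ
  set J : ℝ≥0∞ := ∫⁻ h, ‖f h‖ₑ ^ 2 ∂F.μ with hJ
  have hJfin : J < ⊤ := lintegral_sq_lt_top627 F f hf hc
  refine ⟨Real.sqrt M * Real.sqrt J.toReal, by positivity, fun ψ hψ x hx => ?_⟩
  set I : ℝ≥0∞ := ∫⁻ g in F.D, ‖ψ g‖ₑ ^ 2 ∂F.μ with hI
  have hIfin : I < ⊤ := lintegral_D_lt_top627 F ψ hψ.bdd
  have hmeas : Measurable fun g => ‖ψ g‖ₑ ^ 2 := hψ.cont.measurable.enorm.pow_const 2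
  have hinv1 : ∀ (γ : GL (Fin 2) K) (g : G K), ‖ψ (T1.ratG K γ * g)‖ₑ ^ 2 = ‖ψ g‖ₑ ^ 2 := by
    intro γ g
    have := hψ.left_inv γ g
    unfold T1.ratG
    rw [this]
  have hinv2 : ∀ (t : ℝ) (g : G K), ‖ψ (g * zpos627 t)‖ₑ ^ 2 = ‖ψ g‖ₑ ^ 2 := by
    intro t g
    rw [inv_zpos627 hψ.arch_scalar]
  have h1 := enorm_conv_le627 F f ψ hf hψ.cont x
  have hsub : (fun y => x⁻¹ * y) ⁻¹' tsupport f ⊆ Ω * tsupport f := by
    intro y hy
    exact ⟨x, hx, x⁻¹ * y, hy, mul_inv_cancel_left x y⟩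
  have h2 : ∫⁻ y in (fun y => x⁻¹ * y) ⁻¹' tsupport f, ‖ψ y‖ₑ ^ 2 ∂F.μ ≤ M * I :=
    (lintegral_mono_set hsub).trans (hM _ hmeas hinv1 hinv2)
  have h3 : ‖conv F f ψ x‖ₑ ≤ ((M : ℝ≥0∞) * I) ^ (1 / 2 : ℝ) * J ^ (1 / 2 : ℝ) :=
    h1.trans (mul_le_mul' (ENNReal.rpow_le_rpow h2 (by norm_num)) le_rfl)
  have hfin : ((M : ℝ≥0∞) * I) ^ (1 / 2 : ℝ) * J ^ (1 / 2 : ℝ) ≠ ⊤ := by
    refine ENNReal.mul_ne_top (ENNReal.rpow_ne_top_of_nonneg (by norm_num) ?_)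
      (ENNReal.rpow_ne_top_of_nonneg (by norm_num) hJfin.ne)
    exact ENNReal.mul_ne_top (ENNReal.natCast_ne_top M) hIfin.ne
  have h4 := ENNReal.toReal_mono hfin h3
  rw [toReal_enorm, ENNReal.toReal_mul, ← ENNReal.toReal_rpow, ← ENNReal.toReal_rpow,
    ENNReal.toReal_mul, ENNReal.toReal_natCast, ← Real.sqrt_eq_rpow, ← Real.sqrt_eq_rpow,
    Real.sqrt_mul (Nat.cast_nonneg M), ← nsq_eq627 F ψ hψ.cont] at h4
  calc ‖conv F f ψ x‖ ≤ Real.sqrt M * Real.sqrt (nsq F ψ) * Real.sqrt J.toReal := h4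
    _ = Real.sqrt M * Real.sqrt J.toReal * Real.sqrt (nsq F ψ) := by ring

end Fermat.Agent.LT.T2.H627

end
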