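import Mathlib
import Fermat.Agent.LT.H556.A0
import Fermat.Agent.LT.T1.Spec
import Fermat.Agent.LT.T2.Spec
import Fermat.Agent.LT.T2.H627.Adelic
import Fermat.Agent.LT.T2.H627.Meas
import Fermat.Agent.LT.T2.H627.Conv
import Fermat.Agent.LT.T2.H627.ConstTerm

/-!
# Row LT, tower T2, leaf T2.13 (helper627): `GPSCore ⇒ GPS` and `GPSCore ⇒ GPSKill`

`leaf13_627 : T2.Leaf13 K`.  On the Siegel set `{H ≥ c}` the estimate is `GPSCore` with `N = 0`
(constant term `0` for a cusp function, constant term killed by `R(f)` in the other case); by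
reduction theory (`T1.ReductionC`) every point is `GL₂(K)`-equivalent to a point of height
`≥ c₀`, and the points of height in `[c₀, c]` are `GL₂(K) Z⁺`-equivalent to the points of a
compact set (`T1.SiegelCompactC`, `T1.FujisakiC`), where Cauchy--Schwarz and the finite
multiplicity of the covering of a compact set by the translates of the fundamental domain
(`T1.DiscreteC`) give the estimate.  OFF-MAIN.
-/

set_option autoImplicit false
set_option linter.unusedSectionVars false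
set_option linter.style.haveILetI false

open IsDedekindDomain NumberField MeasureTheory
open Fermat.Agent.LT.H556.A0
open scoped Classical ENNReal Pointwise

noncomputable section

namespace Fermat.Agent.LT.T2.H627

variable {K : Type} [Field K] [NumberField K]

attribute [local instance] Fermat.Agent.LT.T2.borelG
attribute [local instance] borelSpaceG627

theorem conv_left627 (F : Frame K) (𝔫 : Ideal (𝓞 K)) (f ψ : G K → ℂ) (hψ : IsAutFn 𝔫 ψ)
    (γ : GL (Fin 2) K) (x : G K) : conv F f ψ (T1.ratG K γ * x) = conv F f ψ x := by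
  unfold conv
  congr 1
  funext h
  have := hψ.left_inv γ (x * h)
  rw [mul_assoc]
  unfold T1.ratG
  rw [this]

theorem conv_zpos627 (F : Frame K) (𝔫 : Ideal (𝓞 K)) (f ψ : G K → ℂ) (hψ : IsAutFn 𝔫 ψ)
    (t : ℝ) (x : G K) : conv F f ψ (x * zpos627 t) = conv F f ψ x := by
  unfold conv
  congr 1
  funext h
  rw [mul_assoc, zpos627_comm, ← mul_assoc, inv_zpos627 hψ.arch_scalar]

theorem conv_zero627 (F : Frame K) (f : G K → ℂ) (x : G K) :
    conv F f (fun _ => 0) x = 0 := by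
  unfold conv
  simp

theorem adNorm_one627 (hN : T1.AdNormC K) : T1.adNorm K (((1 : (Adl K)ˣ)) : Adl K) = 1 := by
  have h1 := hN.2.1 1 1
  have h2 := hN.1 (1 : (Adl K)ˣ)
  rw [mul_one] at h1
  have h3 : T1.adNorm K (((1 : (Adl K)ˣ)) : Adl K) * (T1.adNorm K (((1 : (Adl K)ˣ)) : Adl K) - 1)
      = 0 := by
    rw [mul_sub, mul_one, ← h1, sub_self]
  rcases mul_eq_zero.mp h3 with h | h
  · exact absurd h h2.ne'
  · exact sub_eq_zero.mp h

theorem adNorm_inv627 (hN : T1.AdNormC K) (u : (Adl K)ˣ) :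
    T1.adNorm K ((u⁻¹ : (Adl K)ˣ) : Adl K) = (T1.adNorm K (u : Adl K))⁻¹ := by
  have h1 := hN.2.1 u u⁻¹
  rw [mul_inv_cancel, adNorm_one627 hN] at h1
  exact eq_inv_of_mul_eq_one_right h1.symm

/-- A central element is a rational scalar times an element of Fujisaki's compact set times a
positive scalar. -/
theorem central_decomp627 (hN : T1.AdNormC K) {C : Set (Adl K)ˣ}
    (hC : ∀ x : (Adl K)ˣ, T1.adNorm K (x : Adl K) = 1 → ∃ ξ : Kˣ, (T1.ratUnit K ξ)⁻¹ * x ∈ C)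
    {z : G K} (hz : T1.IsCentral K z) :
    ∃ (ξ : Kˣ) (κ : (Adl K)ˣ) (τ : ℝ), κ ∈ C ∧
      z = T1.ratG K (ratScal627 ξ) * scal627 κ * zpos627 τ := by
  obtain ⟨u, rfl⟩ := isCentral_eq627 hz
  have hd : 0 < T1.adNorm K (u : Adl K) := hN.1 u
  have hn : (0 : ℝ) < Module.finrank ℚ K := by exact_mod_cast Module.finrank_pos
  set τ : ℝ := Real.log (T1.adNorm K (u : Adl K)) / Module.finrank ℚ K with hτ
  have he : T1.adNorm K ((expIdele627 (fun _ => τ) : (Adl K)ˣ) : Adl K) =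
      T1.adNorm K (u : Adl K) := by
    rw [adNorm_expIdele627_const, hτ, mul_div_cancel₀ _ hn.ne', Real.exp_log hd]
  have h1 : T1.adNorm K ((u * (expIdele627 (fun _ => τ))⁻¹ : (Adl K)ˣ) : Adl K) = 1 := by
    rw [hN.2.1, adNorm_inv627 hN, he, mul_inv_cancel₀ hd.ne']
  obtain ⟨ξ, hξ⟩ := hC _ h1
  refine ⟨ξ, (T1.ratUnit K ξ)⁻¹ * (u * (expIdele627 (fun _ => τ))⁻¹), τ, hξ, ?_⟩
  rw [ratG_ratScal627]
  unfold zpos627
  rw [← map_mul, ← map_mul]
  congr 1
  rw [mul_inv_cancel_left, inv_mul_cancel_right]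

/-- **The estimate on the part of bounded height of a Siegel set.** -/
theorem conv_siegel_le627 (hT1 : T1.T1Out K) (F : Frame K) (𝔫 : Ideal (𝓞 K)) (f : G K → ℂ)
    (hf : Continuous f) (hc : HasCompactSupport f) (c₀ c₁ : ℝ) (hc₀ : 0 < c₀) :
    ∃ C : ℝ, 0 ≤ C ∧ ∀ ψ : G K → ℂ, IsAutFn 𝔫 ψ →
      ∀ (x : G K) (t : ℝ), T1.HasHeight K x t → c₀ ≤ t → t ≤ c₁ →
        ‖conv F f ψ x‖ ≤ C * Real.sqrt (nsq F ψ) := by
  have hT2 : T2Space (G K) := hT1.locComp.2.2.1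
  have hN := hT1.adNorm
  obtain ⟨Ω, m, M, hΩ, hm, hmM, hS⟩ := hT1.siegelCompact c₀ hc₀
  obtain ⟨CF, hCF, hFuj⟩ := hT1.fujisaki
  set s₀ : ℝ := min 1 (m * c₀) with hs₀
  set s₁ : ℝ := max 1 (M * c₁) with hs₁
  have hs₀pos : 0 < s₀ := lt_min one_pos (mul_pos hm hc₀)
  have hΩ' : IsCompact ((scal627 '' CF) * (ray627 (K := K) '' Set.Icc (Real.log s₀) (Real.log s₁))
      * Ω) :=
    ((hCF.image continuous_scal627).mul (isCompact_Icc.image continuous_ray627)).mul hΩ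
  obtain ⟨C, hC0, hC⟩ := conv_compact_le627 F hT2 hT1.discrete hN 𝔫 f hf hc hΩ'
  refine ⟨C, hC0, fun ψ hψ x t hx h0 h1 => ?_⟩
  obtain ⟨β, z, a, ω, s, -, hz, hs, ha, hω, hxeq, hms, hsM⟩ := hS x t hx h0
  have hn : Module.finrank ℚ K ≠ 0 := Module.finrank_pos.ne'
  have hMpos : 0 < M := lt_of_lt_of_le hm hmM
  have hsl : s₀ ≤ s := by
    by_cases h : 1 ≤ s
    · exact (min_le_left _ _).trans h
    · have h' : s ^ Module.finrank ℚ K ≤ s := pow_le_of_le_one hs.le (not_le.mp h).le hn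
      calc s₀ ≤ m * c₀ := min_le_right _ _
        _ ≤ m * t := mul_le_mul_of_nonneg_left h0 hm.le
        _ ≤ s ^ Module.finrank ℚ K := hms
        _ ≤ s := h'
  have hsu : s ≤ s₁ := by
    by_cases h : s ≤ 1
    · exact h.trans (le_max_left _ _)
    · have h' : s ≤ s ^ Module.finrank ℚ K := le_self_pow₀ (not_le.mp h).le hn
      calc s ≤ s ^ Module.finrank ℚ K := h'
        _ ≤ M * t := hsM
        _ ≤ M * c₁ := mul_le_mul_of_nonneg_left h1 hMpos.le
        _ ≤ s₁ := le_max_right _ _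
  have haeq : a = ray627 (Real.log s) := isRay_eq627 hs ha
  obtain ⟨ξ, κ, τ, hκ, hzeq⟩ := central_decomp627 hN hFuj hz
  have hy : scal627 κ * ray627 (Real.log s) * ω ∈
      (scal627 '' CF) * (ray627 (K := K) '' Set.Icc (Real.log s₀) (Real.log s₁)) * Ω := by
    refine Set.mul_mem_mul (Set.mul_mem_mul ⟨κ, hκ, rfl⟩ ⟨Real.log s, ⟨?_, ?_⟩, rfl⟩) hω
    · exact Real.log_le_log hs₀pos hsl
    · exact Real.log_le_log hs hsu
  have hxeq' : x = T1.ratG K (β * ratScal627 ξ) *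
      ((scal627 κ * ray627 (Real.log s) * ω) * zpos627 τ) := by
    rw [hxeq, hzeq, haeq, map_mul]
    have e1 : zpos627 τ * ray627 (Real.log s) * ω =
        ray627 (K := K) (Real.log s) * ω * zpos627 τ := by
      rw [mul_assoc, zpos627_comm]
    calc T1.ratG K β * (T1.ratG K (ratScal627 ξ) * scal627 κ * zpos627 τ) *
          ray627 (Real.log s) * ω
        = T1.ratG K β * T1.ratG K (ratScal627 ξ) * scal627 κ *
          (zpos627 τ * ray627 (Real.log s) * ω) := by simp only [mul_assoc]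
      _ = T1.ratG K β * T1.ratG K (ratScal627 ξ) * scal627 κ *
          (ray627 (Real.log s) * ω * zpos627 τ) := by rw [e1]
      _ = T1.ratG K β * T1.ratG K (ratScal627 ξ) *
          (scal627 κ * ray627 (Real.log s) * ω * zpos627 τ) := by simp only [mul_assoc]
  rw [hxeq', conv_left627 F 𝔫 f ψ hψ, conv_zpos627 F 𝔫 f ψ hψ]
  exact hC ψ hψ _ hy

/-- **`GPSCore ⇒ GPS`.** -/
theorem gps_of_core627 (hT1 : T1.T1Out K) (𝔫 : Ideal (𝓞 K)) (hCore : GPSCore K 𝔫) : GPS K 𝔫 := by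
  intro F f hf
  obtain ⟨C₁, c, -, hcore⟩ := hCore F f hf 0
  obtain ⟨c₀, hc₀, hred⟩ := hT1.reduction
  obtain ⟨C₂, -, hC₂⟩ := conv_siegel_le627 hT1 F 𝔫 f hf.cont hf.cpt c₀ (max c₀ c) hc₀
  refine ⟨max C₁ C₂, fun φ hφ x => ?_⟩
  obtain ⟨γ, t, ht, hct⟩ := hred x
  rw [← conv_left627 F 𝔫 f φ hφ.isAutFn γ x]
  have hsq := Real.sqrt_nonneg (nsq F φ)
  by_cases h : c ≤ t
  · have h1 := hcore φ (fun _ => 0) hφ.isAutFn (isConstTerm_zero hφ.cuspidal) _ t ht h
    rw [conv_zero627, sub_zero, pow_zero, mul_one] at h1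
    exact h1.trans (mul_le_mul_of_nonneg_right (le_max_left _ _) hsq)
  · exact (hC₂ φ hφ.isAutFn _ t ht hct ((not_le.mp h).le.trans (le_max_right _ _))).trans
      (mul_le_mul_of_nonneg_right (le_max_right _ _) hsq)

/-- **`GPSCore ⇒ GPSKill`.** -/
theorem gpsKill_of_core627 (hT1 : T1.T1Out K) (𝔫 : Ideal (𝓞 K)) (hCore : GPSCore K 𝔫) :
    GPSKill K 𝔫 := by
  intro F f hf hkill
  obtain ⟨C₁, c, -, hcore⟩ := hCore F f hf 0
  obtain ⟨c₀, hc₀, hred⟩ := hT1.reduction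
  obtain ⟨C₂, -, hC₂⟩ := conv_siegel_le627 hT1 F 𝔫 f hf.cont hf.cpt c₀ (max c₀ c) hc₀
  refine ⟨max C₁ C₂, fun ψ hψ x => ?_⟩
  obtain ⟨γ, t, ht, hct⟩ := hred x
  rw [← conv_left627 F 𝔫 f ψ hψ γ x]
  have hsq := Real.sqrt_nonneg (nsq F ψ)
  by_cases h : c ≤ t
  · obtain ⟨Ψ, hΨ⟩ := exists_constTerm627 hT1.locComp hT1.addFundDom ψ
      (fun γ g => hψ.left_inv γ g)
    have h1 := hcore ψ Ψ hψ hΨ _ t ht h
    rw [hkill ψ Ψ hψ hΨ, sub_zero, pow_zero, mul_one] at h1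
    exact h1.trans (mul_le_mul_of_nonneg_right (le_max_left _ _) hsq)
  · exact (hC₂ ψ hψ _ t ht hct ((not_le.mp h).le.trans (le_max_right _ _))).trans
      (mul_le_mul_of_nonneg_right (le_max_right _ _) hsq)

/-- **T2.13**: `GPSCore ⇒ GPS` and `GPSCore ⇒ GPSKill`. -/
theorem leaf13_627 (K : Type) [Field K] [NumberField K] : Leaf13 K :=
  fun hT1 𝔫 _ hCore => ⟨gps_of_core627 hT1 𝔫 hCore, gpsKill_of_core627 hT1 𝔫 hCore⟩

end Fermat.Agent.LT.T2.H627

end
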