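import Mathlib
import Fermat.Agent.LT.H556.A0
import Fermat.Agent.LT.T1.Spec
import Fermat.Agent.LT.T2.Spec
import Fermat.Agent.LT.T2.SpecTau
import Fermat.Agent.LT.T2.H627.Adelic
import Fermat.Agent.LT.T2.H627.Meas
import Fermat.Agent.LT.T2.H627.Conv
import Fermat.Agent.LT.T2.H627.ConstTerm
import Fermat.Agent.LT.T2.H627.Leaf13

/-!
# Row LT, tower T2, leaf T2.33 (helper627): `GPSCoreT ⇒ GPST` and `GPSCoreT ⇒ GPSKillT`

`leafT13_627 : T2.LeafT13 K`: the proof of T2.13 (`Leaf13.lean`) for the class of T5 (type `τ`,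
invariance under the ray generator `r` only).  The ray generator is `zpos627 (log 2 / 2n)`; the
shifts into the slab are its powers, and a positive scalar is a power of `r` times an element of
a compact set.  OFF-MAIN.
-/

set_option autoImplicit false
set_option linter.unusedSectionVars false
set_option linter.style.haveILetI false

open IsDedekindDomain NumberField MeasureTheory
open Fermat.Agent.LT.H556.A0
open scoped Classical ENNReal Pointwise

noncomputable section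

namespace Fermat.Agent.LT.T2.H627

variable {K : Type} [Field K] [NumberField K]

attribute [local instance] Fermat.Agent.LT.T2.borelG
attribute [local instance] borelSpaceG627

/-! ## The positive scalars form a one-parameter group -/

theorem zpos627_add (s t : ℝ) : zpos627 (K := K) (s + t) = zpos627 s * zpos627 t := by
  unfold zpos627
  rw [← map_mul, ← expIdele627_add]
  rfl

theorem zpos627_zero : zpos627 (K := K) 0 = 1 := by
  unfold zpos627
  have : (fun _ : InfinitePlace K => (0 : ℝ)) = 0 := rfl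
  rw [this, expIdele627_zero, map_one]

theorem continuous_zpos627 : Continuous (zpos627 (K := K)) :=
  continuous_scal627.comp continuous_expIdele627

/-- The real numbers `t` such that `ψ` is invariant under the positive scalar `exp t`. -/
def invGroup627 (ψ : G K → ℂ) : AddSubgroup ℝ where
  carrier := {t | ∀ g : G K, ψ (g * zpos627 t) = ψ g}
  zero_mem' := fun g => by rw [zpos627_zero, mul_one]
  add_mem' := by
    intro s t hs ht g
    rw [zpos627_add, ← mul_assoc, ht, hs]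
  neg_mem' := by
    intro t ht g
    have h := ht (g * zpos627 (-t))
    rw [mul_assoc, ← zpos627_add, neg_add_cancel, zpos627_zero, mul_one] at h
    exact h.symm

theorem mem_invGroup627 (ψ : G K → ℂ) (t : ℝ) :
    t ∈ invGroup627 ψ ↔ ∀ g : G K, ψ (g * zpos627 t) = ψ g := Iff.rfl

/-- The ray generator is the positive scalar `2^(1/2n)`. -/
theorem isRayGen_eq627 {r : G K} (hr : IsRayGen r) :
    r = zpos627 (Real.log 2 / (2 * Module.finrank ℚ K)) := by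
  obtain ⟨hfin, t, ht, ht2, hinf⟩ := hr
  have hn : (0 : ℝ) < Module.finrank ℚ K := by exact_mod_cast Module.finrank_pos
  have hlog : Real.log 2 / (2 * Module.finrank ℚ K) = Real.log t := by
    have h := congrArg Real.log ht2
    rw [Real.log_pow] at h
    push_cast at h
    rw [← h]
    field_simp
  rw [hlog]
  apply Units.ext
  refine Matrix.ext fun i j => adl_ext627 (fun w => ?_) (fun v => ?_)
  · apply ext_inj627 w
    have h1 : infComp w r i j =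
        (Matrix.diagonal (fun _ => (t : ℂ)) : Matrix (Fin 2) (Fin 2) ℂ) i j := by
      rw [hinf w]
    have h2 : infComp w (zpos627 (Real.log t)) i j =
        (Matrix.diagonal (fun _ => (t : ℂ)) : Matrix (Fin 2) (Fin 2) ℂ) i j := by
      have hu : InfinitePlace.Completion.extensionEmbedding w
          (((expIdele627 (fun _ => Real.log t) : (Adl K)ˣ) : Adl K).1 w) = (t : ℂ) := by
        show InfinitePlace.Completion.extensionEmbedding w (eR627 w (Real.exp (Real.log t))) = _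
        rw [Real.exp_log ht, ext_eR627]
      unfold zpos627
      rw [infComp_scal627, hu]
    exact h1.trans h2.symm
  · have h1 : finComp v r i j = (1 : Matrix (Fin 2) (Fin 2) (v.adicCompletion K)) i j := by
      rw [hfin v]
    have h2 : finComp v (zpos627 (Real.log t)) i j =
        (1 : Matrix (Fin 2) (Fin 2) (v.adicCompletion K)) i j := by
      unfold zpos627
      rw [finComp_scal627]
      show (Matrix.diagonal (fun _ : Fin 2 => (1 : FiniteAdeleRing (𝓞 K) K) v)) i j = _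
      rw [← Matrix.diagonal_one]
      rfl
    exact h1.trans h2.symm

theorem shift627_eq (k : ℤ) :
    shift627 K k = zpos627 ((-k) • (Real.log 2 / (2 * Module.finrank ℚ K))) := by
  unfold shift627
  congr 1
  rw [zsmul_eq_mul]
  push_cast
  ring

theorem mem_invGroup_of_ray627 {ψ : G K → ℂ} {r : G K} (hr : IsRayGen r)
    (h : ∀ g : G K, ψ (g * r) = ψ g) :
    Real.log 2 / (2 * Module.finrank ℚ K) ∈ invGroup627 ψ := by
  rw [mem_invGroup627, ← isRayGen_eq627 hr]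
  exact h

/-- Invariance under the ray generator gives invariance under the shifts. -/
theorem inv_shift627 {ψ : G K → ℂ}
    (h0 : Real.log 2 / (2 * Module.finrank ℚ K) ∈ invGroup627 ψ) (k : ℤ) (g : G K) :
    ψ (shift627 K k * g) = ψ g := by
  have h1 := (invGroup627 ψ).zsmul_mem h0 (-k)
  rw [shift627_eq, zpos627_comm]
  exact h1 g

/-- **Step B for the class of T5.** -/
theorem lintegral_compact_leT627 (F : Frame K) (hT2 : T2Space (G K)) (hD : T1.DiscreteC K)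
    (hN : T1.AdNormC K) {Q : Set (G K)} (hQ : IsCompact Q) :
    ∃ M : ℕ, ∀ h : G K → ℝ≥0∞, Measurable h →
      (∀ (γ : GL (Fin 2) K) (g : G K), h (T1.ratG K γ * g) = h g) →
      (∀ (k : ℤ) (g : G K), h (shift627 K k * g) = h g) →
      ∫⁻ g in Q, h g ∂F.μ ≤ M * ∫⁻ g in F.D, h g ∂F.μ := by
  have hUo : ∀ k : ℤ, IsOpen (nd627 (K := K) ⁻¹' Set.Ioo ((2 : ℝ) ^ (k - 1)) ((2 : ℝ) ^ (k + 1))) :=
    fun k => (continuous_nd627 hN).isOpen_preimage _ isOpen_Ioo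
  have hcov : Q ⊆ ⋃ k : ℤ, nd627 (K := K) ⁻¹' Set.Ioo ((2 : ℝ) ^ (k - 1)) ((2 : ℝ) ^ (k + 1)) := by
    intro g _
    obtain ⟨k, hk⟩ := exists_mem_Ico_zpow (nd627_pos hN g) (by norm_num : (1 : ℝ) < 2)
    refine Set.mem_iUnion.mpr ⟨k, ?_, hk.2⟩
    exact lt_of_lt_of_le (zpow_lt_zpow_right₀ (by norm_num) (by omega)) hk.1
  obtain ⟨t, ht⟩ := hQ.elim_finite_subcover _ hUo hcov
  have hmem : ∀ (k : ℤ) (g : G K), (2 : ℝ) ^ k ≤ nd627 g → nd627 g < (2 : ℝ) ^ (k + 1) →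
      shift627 K k * g ∈ T1.slab K := by
    intro k g h1 h2
    have hpos : (0 : ℝ) < 2 ^ k := zpow_pos (by norm_num) k
    rw [mem_slab_iff627, nd627_mul hN, nd627_shift hN]
    constructor
    · rw [le_inv_mul_iff₀ hpos, mul_one]; exact h1
    · rw [inv_mul_lt_iff₀ hpos, ← zpow_add_one₀ (by norm_num : (2 : ℝ) ≠ 0)]; exact h2
  have hW : ∀ k : ℤ, Q ∩ nd627 (K := K) ⁻¹' Set.Ioo ((2 : ℝ) ^ (k - 1)) ((2 : ℝ) ^ (k + 1)) ⊆
      (Q ∩ (fun g => shift627 K (k - 1) * g) ⁻¹' T1.slab K) ∪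
        (Q ∩ (fun g => shift627 K k * g) ⁻¹' T1.slab K) := by
    rintro k g ⟨hgQ, hg1, hg2⟩
    by_cases hc : nd627 g < (2 : ℝ) ^ k
    · left
      refine ⟨hgQ, hmem (k - 1) g hg1.le ?_⟩
      rw [sub_add_cancel]; exact hc
    · right
      exact ⟨hgQ, hmem k g (not_lt.mp hc) hg2⟩
  choose M hM using fun k : ℤ => lintegral_shift_le627 F hT2 hD hN hQ (shift627 K k)
  refine ⟨∑ k ∈ t, (M (k - 1) + M k), fun h hh hinv hsh => ?_⟩
  have hsub : Q ⊆ ⋃ k ∈ t, ((Q ∩ (fun g => shift627 K (k - 1) * g) ⁻¹' T1.slab K) ∪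
        (Q ∩ (fun g => shift627 K k * g) ⁻¹' T1.slab K)) := by
    intro g hg
    obtain ⟨k, hk, hgk⟩ := Set.mem_iUnion₂.mp (ht hg)
    exact Set.mem_iUnion₂.mpr ⟨k, hk, hW k ⟨hg, hgk⟩⟩
  calc ∫⁻ g in Q, h g ∂F.μ
      ≤ ∫⁻ g in ⋃ k ∈ t, ((Q ∩ (fun g => shift627 K (k - 1) * g) ⁻¹' T1.slab K) ∪
        (Q ∩ (fun g => shift627 K k * g) ⁻¹' T1.slab K)), h g ∂F.μ := lintegral_mono_set hsub
    _ ≤ ∑ k ∈ t, ∫⁻ g in ((Q ∩ (fun g => shift627 K (k - 1) * g) ⁻¹' T1.slab K) ∪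
        (Q ∩ (fun g => shift627 K k * g) ⁻¹' T1.slab K)), h g ∂F.μ :=
        lintegral_biUnion_finset_le627 _ _ _ _
    _ ≤ ∑ k ∈ t, ((M (k - 1) : ℝ≥0∞) * ∫⁻ g in F.D, h g ∂F.μ +
          (M k : ℝ≥0∞) * ∫⁻ g in F.D, h g ∂F.μ) := by
        refine Finset.sum_le_sum fun k _ => ?_
        exact (lintegral_union_le h _ _).trans
          (add_le_add (hM (k - 1) h hh hinv (hsh (k - 1))) (hM k h hh hinv (hsh k)))
    _ = ((∑ k ∈ t, (M (k - 1) + M k) : ℕ) : ℝ≥0∞) * ∫⁻ g in F.D, h g ∂F.μ := by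
        push_cast
        rw [Finset.sum_mul]
        refine Finset.sum_congr rfl fun k _ => ?_
        rw [add_mul]

/-- **The estimate on a compact set, class of T5.** -/
theorem conv_compact_leT627 (F : Frame K) (hT2 : T2Space (G K)) (hD : T1.DiscreteC K)
    (hN : T1.AdNormC K) (f : G K → ℂ) (hf : Continuous f)
    (hc : HasCompactSupport f) {Ω : Set (G K)} (hΩ : IsCompact Ω) :
    ∃ C : ℝ, 0 ≤ C ∧ ∀ ψ : G K → ℂ, Continuous ψ → (∃ C : ℝ, ∀ g : G K, ‖ψ g‖ ≤ C) →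
      (∀ (γ : GL (Fin 2) K) (g : G K), ψ (T1.ratG K γ * g) = ψ g) →
      (∀ (k : ℤ) (g : G K), ψ (shift627 K k * g) = ψ g) →
      ∀ x ∈ Ω, ‖conv F f ψ x‖ ≤ C * Real.sqrt (nsq F ψ) := by
  have hQ : IsCompact (Ω * tsupport f) := hΩ.mul hc
  obtain ⟨M, hM⟩ := lintegral_compact_leT627 F hT2 hD hN hQ
  set J : ℝ≥0∞ := ∫⁻ h, ‖f h‖ₑ ^ 2 ∂F.μ with hJ
  have hJfin : J < ⊤ := lintegral_sq_lt_top627 F f hf hc
  refine ⟨Real.sqrt M * Real.sqrt J.toReal, by positivity, fun ψ hψc hψb hψl hψs x hx => ?_⟩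
  set I : ℝ≥0∞ := ∫⁻ g in F.D, ‖ψ g‖ₑ ^ 2 ∂F.μ with hI
  have hIfin : I < ⊤ := lintegral_D_lt_top627 F ψ hψb
  have hmeas : Measurable fun g => ‖ψ g‖ₑ ^ 2 := hψc.measurable.enorm.pow_const 2
  have hinv1 : ∀ (γ : GL (Fin 2) K) (g : G K), ‖ψ (T1.ratG K γ * g)‖ₑ ^ 2 = ‖ψ g‖ₑ ^ 2 := by
    intro γ g
    rw [hψl]
  have hinv2 : ∀ (k : ℤ) (g : G K), ‖ψ (shift627 K k * g)‖ₑ ^ 2 = ‖ψ g‖ₑ ^ 2 := by
    intro k g
    rw [hψs]
  have h1 := enorm_conv_le627 F f ψ hf hψc x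
  have hsub : (fun y => x⁻¹ * y) ⁻¹' tsupport f ⊆ Ω * tsupport f := by
    intro y hy
    exact ⟨x, hx, x⁻¹ * y, hy, mul_inv_cancel_left x y⟩
  have h2 : ∫⁻ y in (fun y => x⁻¹ * y) ⁻¹' tsupport f, ‖ψ y‖ₑ ^ 2 ∂F.μ ≤ M * I :=
    (lintegral_mono_set hsub).trans (hM _ hmeas hinv1 hinv2)
  have h3 : ‖conv F f ψ x‖ₑ ≤ ((M : ℝ≥0∞) * I) ^ (1 / 2 : ℝ) * J ^ (1 / 2 : ℝ) :=
    h1.trans (mul_le_mul' (ENNReal.rpow_le_rpow h2 (by norm_num)) le_rfl)
  have hfin : ((M : ℝ≥0∞) * I) ^ (1 / 2 : ℝ) * J ^ (1 / 2 : ℝ) ≠ ⊤ := by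
    refine ENNReal.mul_ne_top (ENNReal.rpow_ne_top_of_nonneg (by norm_num) ?_)
      (ENNReal.rpow_ne_top_of_nonneg (by norm_num) hJfin.ne)
    exact ENNReal.mul_ne_top (ENNReal.natCast_ne_top M) hIfin.ne
  have h4 := ENNReal.toReal_mono hfin h3
  rw [toReal_enorm, ENNReal.toReal_mul, ← ENNReal.toReal_rpow, ← ENNReal.toReal_rpow,
    ENNReal.toReal_mul, ENNReal.toReal_natCast, ← Real.sqrt_eq_rpow, ← Real.sqrt_eq_rpow,
    Real.sqrt_mul (Nat.cast_nonneg M), ← nsq_eq627 F ψ hψc] at h4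
  calc ‖conv F f ψ x‖ ≤ Real.sqrt M * Real.sqrt (nsq F ψ) * Real.sqrt J.toReal := h4
    _ = Real.sqrt M * Real.sqrt J.toReal * Real.sqrt (nsq F ψ) := by ring

theorem conv_leftT627 (F : Frame K) (f ψ : G K → ℂ)
    (hl : ∀ (γ : GL (Fin 2) K) (g : G K), ψ (T1.ratG K γ * g) = ψ g)
    (γ : GL (Fin 2) K) (x : G K) : conv F f ψ (T1.ratG K γ * x) = conv F f ψ x := by
  unfold conv
  congr 1
  funext h
  rw [mul_assoc, hl]

theorem conv_invT627 (F : Frame K) (f ψ : G K → ℂ) {t : ℝ} (ht : t ∈ invGroup627 ψ)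
    (x : G K) : conv F f ψ (x * zpos627 t) = conv F f ψ x := by
  unfold conv
  congr 1
  funext h
  rw [mul_assoc, zpos627_comm, ← mul_assoc, ht]

/-- **The estimate on the part of bounded height of a Siegel set, class of T5.** -/
theorem conv_siegel_leT627 (hT1 : T1.T1Out K) (F : Frame K) (f : G K → ℂ)
    (hf : Continuous f) (hc : HasCompactSupport f) (c₀ c₁ : ℝ) (hc₀ : 0 < c₀) :
    ∃ C : ℝ, 0 ≤ C ∧ ∀ ψ : G K → ℂ, Continuous ψ → (∃ C : ℝ, ∀ g : G K, ‖ψ g‖ ≤ C) →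
      (∀ (γ : GL (Fin 2) K) (g : G K), ψ (T1.ratG K γ * g) = ψ g) →
      Real.log 2 / (2 * Module.finrank ℚ K) ∈ invGroup627 ψ →
      ∀ (x : G K) (t : ℝ), T1.HasHeight K x t → c₀ ≤ t → t ≤ c₁ →
        ‖conv F f ψ x‖ ≤ C * Real.sqrt (nsq F ψ) := by
  have hT2 : T2Space (G K) := hT1.locComp.2.2.1
  have hN := hT1.adNorm
  obtain ⟨Ω, m, M, hΩ, hm, hmM, hS⟩ := hT1.siegelCompact c₀ hc₀
  obtain ⟨CF, hCF, hFuj⟩ := hT1.fujisaki
  set s₀ : ℝ := min 1 (m * c₀) with hs₀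
  set s₁ : ℝ := max 1 (M * c₁) with hs₁
  set τ₀ : ℝ := Real.log 2 / (2 * Module.finrank ℚ K) with hτ₀
  have hnpos : (0 : ℝ) < Module.finrank ℚ K := by exact_mod_cast Module.finrank_pos
  have hτ₀pos : 0 < τ₀ := div_pos (Real.log_pos (by norm_num)) (by positivity)
  have hs₀pos : 0 < s₀ := lt_min one_pos (mul_pos hm hc₀)
  have hΩ' : IsCompact ((scal627 '' CF) * (ray627 (K := K) '' Set.Icc (Real.log s₀) (Real.log s₁))
      * Ω * (zpos627 (K := K) '' Set.Icc 0 τ₀)) :=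
    (((hCF.image continuous_scal627).mul (isCompact_Icc.image continuous_ray627)).mul hΩ).mul
      (isCompact_Icc.image continuous_zpos627)
  obtain ⟨C, hC0, hC⟩ := conv_compact_leT627 F hT2 hT1.discrete hN f hf hc hΩ'
  refine ⟨C, hC0, fun ψ hψc hψb hψl hψr x t hx h0 h1 => ?_⟩
  obtain ⟨β, z, a, ω, s, -, hz, hs, ha, hω, hxeq, hms, hsM⟩ := hS x t hx h0
  have hn : Module.finrank ℚ K ≠ 0 := Module.finrank_pos.ne'
  have hMpos : 0 < M := lt_of_lt_of_le hm hmM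
  have hsl : s₀ ≤ s := by
    by_cases h : 1 ≤ s
    · exact (min_le_left _ _).trans h
    · have h' : s ^ Module.finrank ℚ K ≤ s := pow_le_of_le_one hs.le (not_le.mp h).le hn
      calc s₀ ≤ m * c₀ := min_le_right _ _
        _ ≤ m * t := mul_le_mul_of_nonneg_left h0 hm.le
        _ ≤ s ^ Module.finrank ℚ K := hms
        _ ≤ s := h'
  have hsu : s ≤ s₁ := by
    by_cases h : s ≤ 1
    · exact h.trans (le_max_left _ _)
    · have h' : s ≤ s ^ Module.finrank ℚ K := le_self_pow₀ (not_le.mp h).le hn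
      calc s ≤ s ^ Module.finrank ℚ K := h'
        _ ≤ M * t := hsM
        _ ≤ M * c₁ := mul_le_mul_of_nonneg_left h1 hMpos.le
        _ ≤ s₁ := le_max_right _ _
  have haeq : a = ray627 (Real.log s) := isRay_eq627 hs ha
  obtain ⟨ξ, κ, τ, hκ, hzeq⟩ := central_decomp627 hN hFuj hz
  -- split `τ` into a multiple of `τ₀` and a remainder in `[0, τ₀]`
  set k : ℤ := ⌊τ / τ₀⌋ with hk
  set τ' : ℝ := Int.fract (τ / τ₀) * τ₀ with hτ'
  have hτ'0 : 0 ≤ τ' := mul_nonneg (Int.fract_nonneg _) hτ₀pos.le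
  have hτ'1 : τ' ≤ τ₀ := by
    have := (Int.fract_lt_one (τ / τ₀)).le
    calc τ' ≤ 1 * τ₀ := mul_le_mul_of_nonneg_right this hτ₀pos.le
      _ = τ₀ := one_mul _
  have hsplit : τ = τ' + k • τ₀ := by
    rw [hτ', hk, zsmul_eq_mul, ← add_mul, Int.fract_add_floor, div_mul_cancel₀ _ hτ₀pos.ne']
  have hkmem : k • τ₀ ∈ invGroup627 ψ := (invGroup627 ψ).zsmul_mem hψr k
  have hy : scal627 κ * ray627 (Real.log s) * ω * zpos627 τ' ∈
      (scal627 '' CF) * (ray627 (K := K) '' Set.Icc (Real.log s₀) (Real.log s₁)) * Ω *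
        (zpos627 (K := K) '' Set.Icc 0 τ₀) := by
    refine Set.mul_mem_mul (Set.mul_mem_mul (Set.mul_mem_mul ⟨κ, hκ, rfl⟩
      ⟨Real.log s, ⟨?_, ?_⟩, rfl⟩) hω) ⟨τ', ⟨hτ'0, hτ'1⟩, rfl⟩
    · exact Real.log_le_log hs₀pos hsl
    · exact Real.log_le_log hs hsu
  have hxeq' : x = T1.ratG K (β * ratScal627 ξ) *
      ((scal627 κ * ray627 (Real.log s) * ω * zpos627 τ') * zpos627 (k • τ₀)) := by
    rw [hxeq, hzeq, haeq, map_mul]
    have e1 : zpos627 τ * ray627 (Real.log s) * ω =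
        ray627 (K := K) (Real.log s) * ω * (zpos627 τ' * zpos627 (k • τ₀)) := by
      rw [← zpos627_add, ← hsplit, mul_assoc, zpos627_comm]
    calc T1.ratG K β * (T1.ratG K (ratScal627 ξ) * scal627 κ * zpos627 τ) *
          ray627 (Real.log s) * ω
        = T1.ratG K β * T1.ratG K (ratScal627 ξ) * scal627 κ *
          (zpos627 τ * ray627 (Real.log s) * ω) := by simp only [mul_assoc]
      _ = T1.ratG K β * T1.ratG K (ratScal627 ξ) * scal627 κ *
          (ray627 (Real.log s) * ω * (zpos627 τ' * zpos627 (k • τ₀))) := by rw [e1]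
      _ = T1.ratG K β * T1.ratG K (ratScal627 ξ) *
          (scal627 κ * ray627 (Real.log s) * ω * zpos627 τ' * zpos627 (k • τ₀)) := by
          simp only [mul_assoc]
  rw [hxeq', conv_leftT627 F f ψ hψl, conv_invT627 F f ψ hkmem]
  exact hC ψ hψc hψb hψl (inv_shift627 hψr) _ hy

theorem ratG_left_inv627 {ψ : G K → ℂ}
    (h : ∀ (γ : GL (Fin 2) K) (g : G K),
      ψ (Matrix.GeneralLinearGroup.map (algebraMap K (Adl K)) γ * g) = ψ g)
    (γ : GL (Fin 2) K) (g : G K) : ψ (T1.ratG K γ * g) = ψ g := h γ g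

/-- **`GPSCoreT ⇒ GPST`.** -/
theorem gpsT_of_core627 (hT1 : T1.T1Out K) (𝔫 : Ideal (𝓞 K)) (τ : G K → ℂ)
    (hCore : GPSCoreT K 𝔫 τ) : GPST K 𝔫 τ := by
  intro R f hf
  obtain ⟨C₁, c, -, hcore⟩ := hCore R f hf 0
  obtain ⟨c₀, hc₀, hred⟩ := hT1.reduction
  obtain ⟨C₂, -, hC₂⟩ := conv_siegel_leT627 hT1 R.F f hf.cont hf.cpt c₀ (max c₀ c) hc₀
  refine ⟨max C₁ C₂, fun φ hφ x => ?_⟩
  have hl := ratG_left_inv627 hφ.aut.left_inv
  obtain ⟨γ, t, ht, hct⟩ := hred x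
  rw [← conv_leftT627 R.F f φ hl γ x]
  have hsq := Real.sqrt_nonneg (nsq R.F φ)
  by_cases h : c ≤ t
  · have h1 := hcore φ (fun _ => 0) hφ.aut (isConstTerm_zero hφ.cuspidal) _ t ht h
    rw [conv_zero627, sub_zero, pow_zero, mul_one] at h1
    exact h1.trans (mul_le_mul_of_nonneg_right (le_max_left _ _) hsq)
  · exact (hC₂ φ hφ.aut.cont hφ.aut.bdd hl (mem_invGroup_of_ray627 R.ray hφ.aut.ray) _ t ht hct
      ((not_le.mp h).le.trans (le_max_right _ _))).trans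
      (mul_le_mul_of_nonneg_right (le_max_right _ _) hsq)

/-- **`GPSCoreT ⇒ GPSKillT`.** -/
theorem gpsKillT_of_core627 (hT1 : T1.T1Out K) (𝔫 : Ideal (𝓞 K)) (τ : G K → ℂ)
    (hCore : GPSCoreT K 𝔫 τ) : GPSKillT K 𝔫 τ := by
  intro R f hf hkill
  obtain ⟨C₁, c, -, hcore⟩ := hCore R f hf 0
  obtain ⟨c₀, hc₀, hred⟩ := hT1.reduction
  obtain ⟨C₂, -, hC₂⟩ := conv_siegel_leT627 hT1 R.F f hf.cont hf.cpt c₀ (max c₀ c) hc₀
  refine ⟨max C₁ C₂, fun ψ hψ x => ?_⟩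
  have hl := ratG_left_inv627 hψ.left_inv
  obtain ⟨γ, t, ht, hct⟩ := hred x
  rw [← conv_leftT627 R.F f ψ hl γ x]
  have hsq := Real.sqrt_nonneg (nsq R.F ψ)
  by_cases h : c ≤ t
  · obtain ⟨Ψ, hΨ⟩ := exists_constTerm627 hT1.locComp hT1.addFundDom ψ hl
    have h1 := hcore ψ Ψ hψ hΨ _ t ht h
    rw [hkill ψ Ψ hψ hΨ, sub_zero, pow_zero, mul_one] at h1
    exact h1.trans (mul_le_mul_of_nonneg_right (le_max_left _ _) hsq)
  · exact (hC₂ ψ hψ.cont hψ.bdd hl (mem_invGroup_of_ray627 R.ray hψ.ray) _ t ht hct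
      ((not_le.mp h).le.trans (le_max_right _ _))).trans
      (mul_le_mul_of_nonneg_right (le_max_right _ _) hsq)

/-- **T2.33**: `GPSCoreT ⇒ GPST` and `GPSCoreT ⇒ GPSKillT`. -/
theorem leafT13_627 (K : Type) [Field K] [NumberField K] : LeafT13 K :=
  fun hT1 𝔫 τ _ _ hCore => ⟨gpsT_of_core627 hT1 𝔫 τ hCore, gpsKillT_of_core627 hT1 𝔫 τ hCore⟩

end Fermat.Agent.LT.T2.H627

end
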